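import Fermat.Agent.AV.Param

/-!
# An algebra which is étale over a polynomial ring

It is reduced; if it is a domain its points have transcendence degree at most the number of
variables, with equality only at the generic point, and its local rings at points of large
transcendence degree are factorial.
-/

set_option autoImplicit false
set_option linter.style.haveILetI false
set_option linter.unusedSectionVars false

noncomputable section

universe u

open scoped TensorProduct nonZeroDivisors IntermediateField.algebraAdjoinAdjoin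

namespace FLTAgent.AV.Chart

variable {K : Type u} [Field K] {g : ℕ} {S : Type u} [CommRing S] [Algebra K S]
  [Algebra (MvPolynomial (Fin g) K) S] [IsScalarTower K (MvPolynomial (Fin g) K) S]
  [Algebra.Etale (MvPolynomial (Fin g) K) S]

local notation "PP" => MvPolynomial (Fin g) K

theorem isReduced (K : Type u) [Field K] (g : ℕ) (S : Type u) [CommRing S]
    [Algebra (MvPolynomial (Fin g) K) S] [Algebra.Etale (MvPolynomial (Fin g) K) S] :
    IsReduced S := by
  haveI : IsReduced (FractionRing (MvPolynomial (Fin g) K) ⊗[(MvPolynomial (Fin g) K)] S) :=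
    Algebra.FormallyUnramified.isReduced_of_field (FractionRing (MvPolynomial (Fin g) K)) _
  let f := (Algebra.TensorProduct.includeRight : S →ₐ[(MvPolynomial (Fin g) K)] FractionRing (MvPolynomial (Fin g) K) ⊗[(MvPolynomial (Fin g) K)] S)
  have hf : Function.Injective f := by
    have h : ⇑f = (LinearMap.rTensor S (Algebra.ofId (MvPolynomial (Fin g) K) (FractionRing (MvPolynomial (Fin g) K))).toLinearMap).comp
        (Algebra.TensorProduct.lid (MvPolynomial (Fin g) K) S).symm.toLinearMap := by
      ext x; simp [f]
    rw [h]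
    exact (Module.Flat.rTensor_preserves_injective_linearMap _
      (IsFractionRing.injective (MvPolynomial (Fin g) K) (FractionRing (MvPolynomial (Fin g) K)))).comp
        (Algebra.TensorProduct.lid (MvPolynomial (Fin g) K) S).symm.injective
  exact isReduced_of_injective f hf

variable (K g S) in
theorem algebraMap_injective [Nontrivial S] :
    Function.Injective (algebraMap PP S) := by
  refine (injective_iff_map_eq_zero _).2 fun c hc => by_contra fun hne => ?_
  obtain ⟨k, a, y, hy, ha⟩ := Module.Flat.isTrivialRelation_of_sum_smul_eq_zero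
    (f := fun _ : Fin 1 => c) (x := fun _ : Fin 1 => (1 : S)) (by simp [Algebra.smul_def, hc])
  have h1 : (1 : S) = 0 := by
    refine (hy 0).trans (Finset.sum_eq_zero fun j _ => ?_)
    have := ha j
    rw [Fin.sum_univ_one, mul_eq_zero, or_iff_right hne] at this
    rw [this, zero_smul]
  exact one_ne_zero h1

/-! ### Points -/

variable {L : Type u} [Field L] [Algebra K L] (g) (φ : S →ₐ[K] L)

/-- The values of the coordinates. -/
def coord (i : Fin g) : L := φ (algebraMap PP S (MvPolynomial.X i))

theorem comp_algebraMap_apply (c : PP) :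
    φ (algebraMap PP S c) = MvPolynomial.aeval (coord g φ) c :=
  DFunLike.congr_fun (show φ.comp (IsScalarTower.toAlgHom K PP S) =
    MvPolynomial.aeval (coord g φ) from MvPolynomial.algHom_ext fun i => by simp [coord]) c

theorem isAlgebraic_image (s : S) :
    IsAlgebraic (IntermediateField.adjoin K (Set.range (coord g φ))) (φ s) := by
  set k := IntermediateField.adjoin K (Set.range (coord g φ))
  have hmem : ∀ c : PP, φ (algebraMap PP S c) ∈ k := fun c => by
    rw [comp_algebraMap_apply g]
    induction c using MvPolynomial.induction_on with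
    | C a => rw [MvPolynomial.aeval_C]; exact k.algebraMap_mem a
    | add p q hp hq => rw [map_add]; exact add_mem hp hq
    | mul_X p i hp =>
      rw [map_mul, MvPolynomial.aeval_X]
      exact mul_mem hp (IntermediateField.subset_adjoin K _ ⟨i, rfl⟩)
  letI : Algebra PP k := ((φ.toRingHom.comp (algebraMap PP S)).codRestrict k hmem).toAlgebra
  letI : Algebra PP L := (φ.toRingHom.comp (algebraMap PP S)).toAlgebra
  haveI : IsScalarTower PP k L := IsScalarTower.of_algebraMap_eq fun c => rfl
  let φ' : S →ₐ[PP] L := { φ.toRingHom with commutes' := fun c => rfl }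
  let f : k ⊗[PP] S →ₐ[k] L :=
    Algebra.TensorProduct.lift (Algebra.ofId k L) φ' fun _ _ => Commute.all _ _
  haveI : Module.Finite k (k ⊗[PP] S) := Algebra.FormallyUnramified.finite_of_free k _
  have hs : φ s = f ((1 : k) ⊗ₜ s) := by
    show φ s = Algebra.ofId k L 1 * φ' s
    rw [map_one, one_mul]
    rfl
  rw [hs]
  exact ((Algebra.IsIntegral.isIntegral ((1 : k) ⊗ₜ[PP] s)).map f).isAlgebraic

theorem exists_basis :
    ∃ t : Set L, t ⊆ Set.range (coord g φ) ∧
      AlgebraicIndependent K ((↑) : t → L) ∧
      Algebra.trdeg K (IntermediateField.adjoin K (Set.range φ)) ≤ Cardinal.mk t := by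
  set E := IntermediateField.adjoin K (Set.range φ)
  let z : Fin g → E := fun i => ⟨coord g φ i, IntermediateField.subset_adjoin K _ ⟨_, rfl⟩⟩
  -- the field generated by the coordinates
  set k := IntermediateField.adjoin K (Set.range (coord g φ))
  have hkE : k ≤ E := IntermediateField.adjoin_le_iff.2 (by
    rintro _ ⟨i, rfl⟩; exact (z i).2)
  have halg : ∀ x ∈ E, IsAlgebraic k x := fun x hx => by
    induction hx using IntermediateField.adjoin_induction with
    | mem x hx => obtain ⟨s, rfl⟩ := hx; exact isAlgebraic_image g φ s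
    | algebraMap c => exact isAlgebraic_algebraMap (⟨algebraMap K L c, k.algebraMap_mem c⟩ : k)
    | add x y _ _ hx hy => exact hx.add hy
    | inv x _ hx => exact hx.inv
    | mul x y _ _ hx hy => exact hx.mul hy
  letI : Algebra k E := (IntermediateField.inclusion hkE).toRingHom.toAlgebra
  haveI : IsScalarTower k E L := IsScalarTower.of_algebraMap_eq fun c => rfl
  haveI : IsScalarTower K k E := IsScalarTower.of_algebraMap_eq fun c => rfl
  haveI : Algebra.IsAlgebraic k E :=
    ⟨fun x => (isAlgebraic_algebraMap_iff (algebraMap E L).injective).1 (halg x.1 x.2)⟩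
  set B := Algebra.adjoin K (Set.range (coord g φ)) with hB
  letI : Algebra B E := ((algebraMap k E).comp (algebraMap B k)).toAlgebra
  haveI : IsScalarTower B k E := IsScalarTower.of_algebraMap_eq fun c => rfl
  haveI : IsScalarTower K B E := IsScalarTower.of_algebraMap_eq fun c => rfl
  haveI : FaithfulSMul B E := (faithfulSMul_iff_algebraMap_injective _ _).2 fun x y h =>
    Subtype.ext (congrArg (Subtype.val : E → L) h)
  haveI : Algebra.IsAlgebraic B E := Algebra.IsAlgebraic.trans B k E
  haveI : Algebra.IsAlgebraic
      (Algebra.adjoin K ((Subtype.val : B → L) ⁻¹' Set.range (coord g φ))) B :=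
    ⟨fun x => isAlgebraic_algebraMap (⟨x, by
      rw [Algebra.adjoin_adjoin_coe_preimage]; trivial⟩ :
      Algebra.adjoin K ((Subtype.val : B → L) ⁻¹' Set.range (coord g φ)))⟩
  obtain ⟨u, hu, htu⟩ := exists_isTranscendenceBasis_subset (R := K) (A := B)
    ((Subtype.val : B → L) ⁻¹' Set.range (coord g φ))
  refine ⟨(↑) '' u, ?_, ?_, ?_⟩
  · rintro _ ⟨x, hx, rfl⟩
    exact hu hx
  · exact (htu.1.map' (f := B.val) Subtype.val_injective).to_subtype_range' (by
      rw [Set.range_comp, Subtype.range_coe]; rfl)
  · rw [Cardinal.mk_image_eq Subtype.val_injective, htu.cardinalMk_eq_trdeg,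
      ← trdeg_add_eq K B (A := E), trdeg_eq_zero (R := B) (A := E), add_zero]

theorem exists_independent {m : ℕ}
    (h : (m : Cardinal) ≤ Algebra.trdeg K (IntermediateField.adjoin K (Set.range φ))) :
    ∃ ι : Fin m → Fin g, Function.Injective ι ∧
      AlgebraicIndependent K fun i => coord g φ (ι i) := by
  obtain ⟨t, ht, hind, hle⟩ := exists_basis g φ
  haveI : Finite t := ((Set.finite_range _).subset ht).to_subtype
  have hm : (m : Cardinal) ≤ Cardinal.mk t := h.trans hle
  obtain ⟨e⟩ : Nonempty (Fin m ↪ t) := by
    rw [← Cardinal.lift_mk_le']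
    simpa using hm
  choose ι hι using fun x : t => ht x.2
  refine ⟨fun i => ι (e i), fun i j hij => e.injective (Subtype.ext ?_), ?_⟩
  · rw [← hι, ← hι]
    exact congrArg _ hij
  · convert hind.comp e e.injective using 1
    funext i
    exact hι _

theorem injective_of_dim
    (h : (g : Cardinal) ≤ Algebra.trdeg K (IntermediateField.adjoin K (Set.range φ))) :
    ∀ c : PP, φ (algebraMap PP S c) = 0 → c = 0 := by
  obtain ⟨ι, hι, hind⟩ := exists_independent g φ h
  intro c hc
  have hb : Function.Bijective ι := Finite.injective_iff_bijective.1 hι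
  have h2 : AlgebraicIndependent K (coord g φ) := by
    convert hind.comp _ (Equiv.ofBijective ι hb).symm.injective using 1
    funext i
    exact congrArg (coord g φ) ((Equiv.ofBijective ι hb).apply_symm_apply i).symm
  rw [comp_algebraMap_apply g] at hc
  exact h2.eq_zero_of_aeval_eq_zero c hc

variable [IsDomain S]

variable (K S) in
theorem isAlgebraic : Algebra.IsAlgebraic PP S := by
  haveI : Nontrivial S := inferInstance
  let N := FractionRing S
  haveI : FaithfulSMul PP S := (faithfulSMul_iff_algebraMap_injective _ _).2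
    (algebraMap_injective K g S)
  let k := FractionRing PP
  letI : Algebra k N := FractionRing.liftAlgebra PP N
  haveI : Module.Finite k (k ⊗[PP] S) := Algebra.FormallyUnramified.finite_of_free k _
  let f : k ⊗[PP] S →ₐ[k] N :=
    Algebra.TensorProduct.lift (Algebra.ofId k N) (IsScalarTower.toAlgHom PP S N)
      fun _ _ => Commute.all _ _
  refine ⟨fun s => ?_⟩
  have hs : algebraMap S N s = f ((1 : k) ⊗ₜ s) := by
    show _ = Algebra.ofId k N 1 * _
    rw [map_one, one_mul]
    rfl
  have h1 : IsAlgebraic k (algebraMap S N s) := by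
    rw [hs]
    exact ((Algebra.IsIntegral.isIntegral ((1 : k) ⊗ₜ[PP] s)).map f).isAlgebraic
  exact (isAlgebraic_algebraMap_iff (IsFractionRing.injective S N)).1
    ((IsFractionRing.isAlgebraic_iff PP k N).2 h1)

theorem ker_eq_bot
    (h : (g : Cardinal) ≤ Algebra.trdeg K (IntermediateField.adjoin K (Set.range φ))) :
    RingHom.ker φ = ⊥ := by
  haveI := isAlgebraic K g S
  refine (Submodule.eq_bot_iff _).2 fun s hs => by_contra fun hne => ?_
  obtain ⟨r, hr, d, hd⟩ := (Algebra.IsAlgebraic.isAlgebraic (R := PP) s).exists_nonzero_dvd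
    (mem_nonZeroDivisors_of_ne_zero hne)
  refine hr (injective_of_dim g φ h r ?_)
  rw [hd, map_mul, RingHom.mem_ker.1 hs, zero_mul]

theorem trdeg_fractionRing (N : Type u) [Field N] [Algebra S N] [IsFractionRing S N] [Algebra K N]
    [IsScalarTower K S N] : Algebra.trdeg K N = g := by
  haveI := isAlgebraic K g S
  haveI : Nontrivial S := inferInstance
  haveI : FaithfulSMul PP S := (faithfulSMul_iff_algebraMap_injective _ _).2
    (algebraMap_injective K g S)
  letI : Algebra PP N := ((algebraMap S N).comp (algebraMap PP S)).toAlgebra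
  haveI : IsScalarTower PP S N := IsScalarTower.of_algebraMap_eq fun c => rfl
  haveI : IsScalarTower K PP N := IsScalarTower.of_algebraMap_eq fun c => by
    rw [IsScalarTower.algebraMap_apply K S N, IsScalarTower.algebraMap_apply K PP S]
    rfl
  haveI : FaithfulSMul PP N := (faithfulSMul_iff_algebraMap_injective _ _).2
    ((IsFractionRing.injective S N).comp (algebraMap_injective K g S))
  haveI : Algebra.IsAlgebraic S N := IsLocalization.isAlgebraic N (nonZeroDivisors S)
  haveI : Algebra.IsAlgebraic PP N := Algebra.IsAlgebraic.trans PP S N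
  rw [← trdeg_add_eq K PP (A := N), trdeg_eq_zero (R := PP) (A := N), add_zero,
    MvPolynomial.trdeg_of_isDomain]
  simp

/-! ### Factoriality -/

theorem pair_of_values {k : ℕ} (p : Ideal (MvPolynomial (Fin k) K)) [p.IsPrime] (cd : Fin k → L)
    (hp : ∀ c, c ∈ p ↔ MvPolynomial.aeval cd c = 0)
    (hind' : ∀ n, n + 2 ≤ k → ∃ ι : Fin n → Fin k, Function.Injective ι ∧
      AlgebraicIndependent K fun i => cd (ι i)) : Param.Pair p := by
  classical
  rcases k with _ | _ | n
  ·
    have hp0 : p = ⊥ := (Submodule.eq_bot_iff _).2 fun c hc => by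
      obtain ⟨a, rfl⟩ := MvPolynomial.C_surjective (Fin 0) c
      rw [hp, MvPolynomial.aeval_C, map_eq_zero] at hc
      rw [hc, map_zero]
    rw [hp0]
    exact Param.pair_of_principal Param.principal_bot
  · let e : MvPolynomial (Fin 1) K ≃ₐ[K] Polynomial K :=
      (MvPolynomial.renameEquiv K (Equiv.equivPUnit (Fin 1))).trans (MvPolynomial.uniqueAlgEquiv K PUnit.{1})
    let p' := p.comap e.symm.toRingEquiv.toRingHom
    haveI : p'.IsPrime := Ideal.IsPrime.comap _
    have hp' : p'.comap (Polynomial.C : K →+* Polynomial K) = ⊥ :=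
      (Ideal.eq_bot_or_top _).resolve_right fun htop => ‹p'.IsPrime›.ne_top
        ((Ideal.eq_top_iff_one _).2 (by
          have : (1 : K) ∈ p'.comap (Polynomial.C : K →+* Polynomial K) := htop ▸ Submodule.mem_top
          simpa using this))
    obtain ⟨b, hb⟩ := Param.principal_polynomial p' hp'
    have h1 := Param.pair_of_equiv e.toRingEquiv (Param.pair_of_principal hb)
    rwa [show p'.comap e.toRingEquiv.toRingHom = p from by
      ext x
      simp [p']] at h1
  · obtain ⟨ι, hι, hind⟩ := hind' n (by omega)
    have hcard : Fintype.card {x : Fin (n + 2) // x ∉ Set.range ι} = 2 := by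
      rw [Fintype.card_subtype_compl, show Fintype.card {x // x ∈ Set.range ι} = n from
        (Set.card_range_of_injective hι).trans (Fintype.card_fin n), Fintype.card_fin]
      omega
    let e₂ := (Fintype.equivFinOfCardEq hcard).symm
    let θ : Option (Option (Fin n)) → Fin (n + 2) := fun o =>
      o.elim (e₂ 0).1 fun o' => o'.elim (e₂ 1).1 ι
    have hθ : Function.Bijective θ := by
      rw [Fintype.bijective_iff_injective_and_card]
      refine ⟨?_, by simp⟩
      have h0 : ∀ i k, ι i ≠ (e₂ k).1 := fun i k hh => (e₂ k).2 ⟨i, hh⟩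
      have h01 : (e₂ 0).1 ≠ (e₂ 1).1 := fun hh => by
        simpa using e₂.injective (Subtype.ext hh)
      rintro (_ | _ | i) (_ | _ | j) hij <;> simp only [θ, Option.elim] at hij
      · rfl
      · exact absurd hij h01
      · exact absurd hij.symm (h0 j 0)
      · exact absurd hij.symm h01
      · rfl
      · exact absurd hij.symm (h0 j 1)
      · exact absurd hij (h0 i 0)
      · exact absurd hij (h0 i 1)
      · rw [hι hij]
    let e : MvPolynomial (Fin (n + 2)) K ≃ₐ[K]
        Polynomial (Polynomial (MvPolynomial (Fin n) K)) :=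
      (MvPolynomial.renameEquiv K (Equiv.ofBijective θ hθ).symm).trans
        ((MvPolynomial.optionEquivLeft K (Option (Fin n))).trans
          (Polynomial.mapAlgEquiv (MvPolynomial.optionEquivLeft K (Fin n))))
    have hC : ∀ c : MvPolynomial (Fin n) K,
        e (MvPolynomial.rename ι c) = Polynomial.C (Polynomial.C c) := fun c => by
      have h1 : e.toAlgHom.comp (MvPolynomial.rename ι) = IsScalarTower.toAlgHom K
          (MvPolynomial (Fin n) K) (Polynomial (Polynomial (MvPolynomial (Fin n) K))) := by
        refine MvPolynomial.algHom_ext fun i => ?_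
        have : (Equiv.ofBijective θ hθ).symm (ι i) = some (some i) :=
          (Equiv.symm_apply_eq _).2 rfl
        simp [e, this]
      exact DFunLike.congr_fun h1 c
    let p' := p.comap e.symm.toRingEquiv.toRingHom
    haveI : p'.IsPrime := Ideal.IsPrime.comap _
    have hp' : p'.comap ((Polynomial.C : Polynomial (MvPolynomial (Fin n) K) →+* _).comp
        (Polynomial.C : MvPolynomial (Fin n) K →+* _)) = ⊥ := by
      refine (Submodule.eq_bot_iff _).2 fun c hc => ?_
      have h1 : e.symm (Polynomial.C (Polynomial.C c)) ∈ p := hc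
      rw [← hC, e.symm_apply_apply, hp, MvPolynomial.aeval_rename] at h1
      exact hind.eq_zero_of_aeval_eq_zero c h1
    have h1 := Param.pair_of_equiv e.toRingEquiv (Param.pair_polynomial₂ p' hp')
    rwa [show p'.comap e.toRingEquiv.toRingHom = p from by
      ext x
      simp [p']] at h1

theorem pair_comap {m : ℕ} (hm : g ≤ m + 2)
    (h : (m : Cardinal) ≤ Algebra.trdeg K (IntermediateField.adjoin K (Set.range φ))) :
    Param.Pair ((RingHom.ker φ).comap (algebraMap PP S)) := by
  haveI : (RingHom.ker φ).IsPrime := RingHom.ker_isPrime _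
  haveI : ((RingHom.ker φ).comap (algebraMap PP S)).IsPrime := Ideal.IsPrime.comap _
  refine pair_of_values _ (coord g φ) (fun c => ?_)
    fun n hn => exists_independent g φ (le_trans (Nat.cast_le.2 (by omega)) h)
  rw [← comp_algebraMap_apply g]
  rfl

set_option maxHeartbeats 1000000 in
theorem ufd_localization {m : ℕ} (hm : g ≤ m + 2)
    (h : (m : Cardinal) ≤ Algebra.trdeg K (IntermediateField.adjoin K (Set.range φ)))
    (q : Ideal S) [q.IsPrime] (hq : q = RingHom.ker φ) :
    UniqueFactorizationMonoid (Localization.AtPrime q) := by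
  haveI : IsNoetherianRing S := Algebra.FiniteType.isNoetherianRing PP S
  haveI : IsNoetherianRing (Localization.AtPrime q) :=
    IsLocalization.isNoetherianRing q.primeCompl _ inferInstance
  haveI : IsDomain (Localization.AtPrime q) :=
    IsLocalization.isDomain_localization q.primeCompl_le_nonZeroDivisors
  set p := q.comap (algebraMap PP S)
  haveI : p.IsPrime := Ideal.IsPrime.comap _
  haveI : q.LiesOver p := ⟨rfl⟩
  letI : Algebra (Localization.AtPrime p) (Localization.AtPrime q) :=
    Localization.AtPrime.algebraOfLiesOver p q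
  haveI : Algebra.IsUnramifiedAt PP q := by
    haveI : Algebra.FormallyUnramified S (Localization.AtPrime q) :=
      .of_isLocalization q.primeCompl
    exact Algebra.FormallyUnramified.comp PP S (Localization.AtPrime q)
  set O := Localization.AtPrime q
  have hmax := ((Algebra.isUnramifiedAt_iff_map_eq PP p q).1 inferInstance).2
  haveI : Module.Flat S O := IsLocalization.flat O q.primeCompl
  haveI : Module.Flat PP O := Module.Flat.trans PP S O
  obtain ⟨a, b, ha, hb, hgen, hreg⟩ : Param.Pair p := by
    subst hq
    exact pair_comap g φ hm h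
  have hunit : ∀ s, s ∉ p → IsUnit (algebraMap PP O s) := fun s hs => by
    rw [IsScalarTower.algebraMap_apply PP S O]
    exact IsLocalization.map_units O (⟨_, hs⟩ : q.primeCompl)
  have hloc : ∀ (T : Set PP) x, Param.LocMem p (Ideal.span T) x →
      algebraMap PP O x ∈ Ideal.span (algebraMap PP O '' T) := by
    rintro T x ⟨s, hs, hsx⟩
    have h1 := Ideal.mem_map_of_mem (algebraMap PP O) hsx
    rw [Ideal.map_span, map_mul] at h1
    exact (Ideal.unit_mul_mem_iff_mem _ (hunit s hs)).1 h1
  refine Param.ufd_of_pair (a := algebraMap PP O a) (b := algebraMap PP O b) ?_ ?_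
  · refine le_antisymm ?_ ?_
    · rw [← hmax, Ideal.map_le_iff_le_comap]
      intro x hx
      have := hloc _ x (hgen x hx)
      rwa [Set.image_pair] at this
    · rw [Ideal.span_le]
      rintro _ (rfl | rfl)
      · exact hmax ▸ Ideal.mem_map_of_mem _ ha
      · exact hmax ▸ Ideal.mem_map_of_mem _ hb
  rcases hreg with h1 | h1
  · left
    have := hloc _ _ h1
    rwa [Set.image_singleton] at this
  right
  rintro y ⟨z, hz⟩
  obtain ⟨k, c, w, hw, hc⟩ := Module.Flat.isTrivialRelation_of_sum_smul_eq_zero
    (f := ![b, a]) (x := ![y, -z]) (by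
      rw [Fin.sum_univ_two]
      simp only [Matrix.cons_val_zero, Matrix.cons_val_one, Algebra.smul_def]
      linear_combination hz)
  rw [← Ideal.mem_span_singleton, show y = ∑ j, c 0 j • w j from hw 0]
  refine Ideal.sum_mem _ fun j _ => ?_
  rw [Algebra.smul_def]
  refine Ideal.mul_mem_right _ _ ?_
  have h2 : Param.LocMem p (Ideal.span {a}) (b * c 0 j) := by
    refine ⟨1, (Ideal.ne_top_iff_one p).1 ‹p.IsPrime›.ne_top, Ideal.mem_span_singleton.2 ⟨-c 1 j, ?_⟩⟩
    have := hc j
    rw [Fin.sum_univ_two] at this
    simp only [Matrix.cons_val_zero, Matrix.cons_val_one] at this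
    linear_combination this
  have := hloc _ _ (h1 _ h2)
  rwa [Set.image_singleton] at this

/-! ### Codimension one -/

theorem principal_of_values {k : ℕ} (p : Ideal (MvPolynomial (Fin k) K)) [p.IsPrime] (cd : Fin k → L)
    (hp : ∀ c, c ∈ p ↔ MvPolynomial.aeval cd c = 0)
    (hind' : ∀ n, n + 1 ≤ k → ∃ ι : Fin n → Fin k, Function.Injective ι ∧
      AlgebraicIndependent K fun i => cd (ι i)) : ∃ a, Param.Principal p a := by
  classical
  rcases k with _ | n
  · have hp0 : p = ⊥ := (Submodule.eq_bot_iff _).2 fun c hc => by
      obtain ⟨a, rfl⟩ := MvPolynomial.C_surjective (Fin 0) c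
      rw [hp, MvPolynomial.aeval_C, map_eq_zero] at hc
      rw [hc, map_zero]
    exact ⟨0, hp0 ▸ Param.principal_bot⟩
  · obtain ⟨ι, hι, hind⟩ := hind' n le_rfl
    have hcard : Fintype.card {x : Fin (n + 1) // x ∉ Set.range ι} = 1 := by
      rw [Fintype.card_subtype_compl, show Fintype.card {x // x ∈ Set.range ι} = n from
        (Set.card_range_of_injective hι).trans (Fintype.card_fin n), Fintype.card_fin]
      omega
    obtain ⟨⟨j, hj⟩⟩ : Nonempty {x : Fin (n + 1) // x ∉ Set.range ι} :=
      Fintype.card_pos_iff.1 (by rw [hcard]; exact one_pos)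
    let θ : Option (Fin n) → Fin (n + 1) := fun o => o.elim j ι
    have hθ : Function.Bijective θ := by
      rw [Fintype.bijective_iff_injective_and_card]
      refine ⟨?_, by simp⟩
      rintro (_ | i) (_ | i') h <;> simp only [θ, Option.elim] at h
      · rfl
      · exact absurd ⟨i', h.symm⟩ hj
      · exact absurd ⟨i, h⟩ hj
      · rw [hι h]
    let e : MvPolynomial (Fin (n + 1)) K ≃ₐ[K] Polynomial (MvPolynomial (Fin n) K) :=
      (MvPolynomial.renameEquiv K (Equiv.ofBijective θ hθ).symm).trans
        (MvPolynomial.optionEquivLeft K (Fin n))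
    have hC : ∀ c : MvPolynomial (Fin n) K,
        e (MvPolynomial.rename ι c) = Polynomial.C c := fun c => by
      have h1 : e.toAlgHom.comp (MvPolynomial.rename ι) = IsScalarTower.toAlgHom K
          (MvPolynomial (Fin n) K) (Polynomial (MvPolynomial (Fin n) K)) := by
        refine MvPolynomial.algHom_ext fun i => ?_
        have : (Equiv.ofBijective θ hθ).symm (ι i) = some i := (Equiv.symm_apply_eq _).2 rfl
        simp [e, this]
      exact DFunLike.congr_fun h1 c
    let p' := p.comap e.symm.toRingEquiv.toRingHom
    haveI : p'.IsPrime := Ideal.IsPrime.comap _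
    have hp' : p'.comap (Polynomial.C : MvPolynomial (Fin n) K →+* _) = ⊥ := by
      refine (Submodule.eq_bot_iff _).2 fun c hc => ?_
      have h1 : e.symm (Polynomial.C c) ∈ p := hc
      rw [← hC, e.symm_apply_apply, hp, MvPolynomial.aeval_rename] at h1
      exact hind.eq_zero_of_aeval_eq_zero c h1
    obtain ⟨b, hb, hgen⟩ := Param.principal_polynomial p' hp'
    refine ⟨e.symm b, hb, fun x hx => ?_⟩
    obtain ⟨t, ht, htx⟩ := hgen (e x) (show e.symm (e x) ∈ p by rwa [e.symm_apply_apply])
    refine ⟨e.symm t, ht, ?_⟩
    rw [Ideal.mem_span_singleton] at htx ⊢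
    simpa using map_dvd e.symm htx

set_option maxHeartbeats 1000000 in
theorem valuationRing_localization {m : ℕ} (hm : g ≤ m + 1)
    (h : (m : Cardinal) ≤ Algebra.trdeg K (IntermediateField.adjoin K (Set.range φ)))
    (q : Ideal S) [q.IsPrime] (hq : q = RingHom.ker φ) (x y : Localization.AtPrime q) :
    x ∣ y ∨ y ∣ x := by
  haveI : IsNoetherianRing S := Algebra.FiniteType.isNoetherianRing PP S
  haveI : IsNoetherianRing (Localization.AtPrime q) :=
    IsLocalization.isNoetherianRing q.primeCompl _ inferInstance
  haveI : IsDomain (Localization.AtPrime q) :=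
    IsLocalization.isDomain_localization q.primeCompl_le_nonZeroDivisors
  set p := q.comap (algebraMap PP S) with hpdef
  haveI : p.IsPrime := Ideal.IsPrime.comap _
  haveI : q.LiesOver p := ⟨rfl⟩
  letI : Algebra (Localization.AtPrime p) (Localization.AtPrime q) :=
    Localization.AtPrime.algebraOfLiesOver p q
  haveI : Algebra.IsUnramifiedAt PP q := by
    haveI : Algebra.FormallyUnramified S (Localization.AtPrime q) :=
      .of_isLocalization q.primeCompl
    exact Algebra.FormallyUnramified.comp PP S (Localization.AtPrime q)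
  have hmax := ((Algebra.isUnramifiedAt_iff_map_eq PP p q).1 inferInstance).2
  obtain ⟨a, ha, hgen⟩ : ∃ a, Param.Principal p a := by
    refine principal_of_values p (coord g φ) (fun c => ?_)
      fun n hn => exists_independent g φ (le_trans (Nat.cast_le.2 (by omega)) h)
    rw [hpdef, Ideal.mem_comap, hq, RingHom.mem_ker, comp_algebraMap_apply g]
  set O := Localization.AtPrime q
  have hmax' : IsLocalRing.maximalIdeal O = Ideal.span {algebraMap PP O a} := by
    refine le_antisymm ?_ ((Ideal.span_singleton_le_iff_mem _).2 (hmax ▸ Ideal.mem_map_of_mem _ ha))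
    rw [← hmax, Ideal.map_le_iff_le_comap]
    intro c hc
    obtain ⟨s, hs, hsy⟩ := hgen c hc
    have h1 := Ideal.mem_map_of_mem (algebraMap PP O) hsy
    rw [Ideal.map_span, map_mul, Set.image_singleton] at h1
    rw [Ideal.mem_comap]
    refine (Ideal.unit_mul_mem_iff_mem _ ?_).1 h1
    rw [IsScalarTower.algebraMap_apply PP S O]
    exact IsLocalization.map_units O (⟨_, hs⟩ : q.primeCompl)
  haveI := Param.isPrincipal_of_maximalIdeal hmax'
  exact ValuationRing.dvd_total _ _

end FLTAgent.AV.Chart
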