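import Fermat.Agent.AV.Scheme.Tangent

/-!
# The logarithmic derivative

Tangent vectors at the neutral point are read off in etale coordinates there; this gives the
logarithmic derivative of points along a derivation and the gradient of a rational function in the
invariant frame.
-/

set_option autoImplicit false
set_option linter.style.haveILetI false
set_option linter.unusedSectionVars false

noncomputable section

universe u

open CategoryTheory AlgebraicGeometry NeronModelInfra GoodReductionJacobian
  TopologicalSpace IsLocalRing TrivSqZeroExt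

namespace FLTAgent.AV.AbVar

variable {K : Type u} [Field K] {g : ℕ} {X : AbVar K g}

variable (X) in
/-- Etale coordinates near the neutral point. -/
structure Frame where
  V : X.A.Opens
  hV : IsAffineOpen V
  one_in : (1 : X.H K).In V
  φ : MvPolynomial (Fin g) K →+* Γ(X.A, V)
  base : φ.comp MvPolynomial.C = Var.baseHom X.f V
  etale : φ.Etale

variable (X) in
theorem exists_frame : Nonempty (Frame X) := by
  obtain ⟨V, hV, hx, φ, hC, hφ⟩ := Var.exists_chart X.f g ((1 : X.H K).hom (closedPoint K))
  exact ⟨⟨V, hV, hx, φ, hC, hφ⟩⟩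

variable (F : Frame X)

instance : Algebra (MvPolynomial (Fin g) K) Γ(X.A, F.V) := F.φ.toAlgebra

instance : Algebra.Etale (MvPolynomial (Fin g) K) Γ(X.A, F.V) := F.etale

instance : Nonempty F.V := ⟨⟨_, F.one_in⟩⟩

/-- The coordinates. -/
def Frame.coord (i : Fin g) : Γ(X.A, F.V) := F.φ (MvPolynomial.X i)

variable {L L' : Type u} [Field L] [Algebra K L] [Field L'] [Algebra K L']
  {M : Type u} [AddCommGroup M] [Module L M] [Module Lᵐᵒᵖ M] [IsCentralScalar L M]
  [Module K M] [IsScalarTower K L M] [IsScalarTower K Lᵐᵒᵖ M]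

theorem res_ofId {R : Type u} [CommRing R] [Algebra K R] :
    X.res (Algebra.ofId K R) (1 : X.H K) = 1 := map_one _

theorem one_in_field : (1 : X.H L).In F.V := by
  rw [← res_ofId (X := X)]
  exact In.res F.one_in _

theorem tan_in {t : X.H (TrivSqZeroExt L M)} (h : Tan X t) : t.In F.V := by
  have := translate_in (one_in_field F) h
  rwa [map_one, one_mul] at this

theorem der_one (t : X.H (TrivSqZeroExt L M)) (s : Γ(X.A, F.V)) :
    der F.V (1 : X.H L) t s = (val F.V t s).snd := by
  rw [der, map_one, one_mul]

/-- The coordinates of a tangent vector. -/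
def vec (t : X.H (TrivSqZeroExt L M)) (i : Fin g) : M := der F.V (1 : X.H L) t (F.coord i)

theorem vec_injective {t t' : X.H (TrivSqZeroExt L M)} (h : Tan X t) (h' : Tan X t')
    (e : vec F t = vec F t') : t = t' := by
  let a := sect (tan_in F h)
  let a' := sect (tan_in F h')
  have hfst : ∀ s, (a s).fst = (a' s).fst := fun s => by
    have h1 := fst_translate F.hV (one_in_field F) h s
    have h2 := fst_translate F.hV (one_in_field F) h' s
    rw [map_one, one_mul, val_eq (tan_in F h)] at h1
    rw [map_one, one_mul, val_eq (tan_in F h')] at h2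
    exact h1.trans h2.symm
  have hC : a.comp F.φ = a'.comp F.φ := by
    refine MvPolynomial.ringHom_ext (fun c => ?_) fun i => TrivSqZeroExt.ext (hfst _) ?_
    · have e1 : a (F.φ (MvPolynomial.C c)) = algebraMap K _ c := by
        rw [show F.φ (MvPolynomial.C c) = Var.baseHom X.f F.V c from RingHom.congr_fun F.base c]
        exact sect_base F.hV _ c
      have e2 : a' (F.φ (MvPolynomial.C c)) = algebraMap K _ c := by
        rw [show F.φ (MvPolynomial.C c) = Var.baseHom X.f F.V c from RingHom.congr_fun F.base c]
        exact sect_base F.hV _ c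
      exact e1.trans e2.symm
    · have h1 := congrFun e i
      rw [vec, vec, der_one, der_one, val_eq (tan_in F h), val_eq (tan_in F h')] at h1
      exact h1
  letI : Algebra (MvPolynomial (Fin g) K) (TrivSqZeroExt L M) := (a.comp F.φ).toAlgebra
  let α : Γ(X.A, F.V) →ₐ[MvPolynomial (Fin g) K] TrivSqZeroExt L M :=
    { a with commutes' := fun c => rfl }
  let α' : Γ(X.A, F.V) →ₐ[MvPolynomial (Fin g) K] TrivSqZeroExt L M :=
    { a' with commutes' := fun c => (RingHom.congr_fun hC c).symm }
  have hn : IsNilpotent (RingHom.ker (fstK (K := K) (L := L) (M := M)).toRingHom) :=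
    ⟨2, by
      rw [pow_two, Ideal.zero_eq_bot, ← le_bot_iff, Ideal.mul_le]
      intro x hx y hy
      rw [RingHom.mem_ker] at hx hy
      change x.fst = 0 at hx
      change y.fst = 0 at hy
      exact Ideal.mem_bot.2 (TrivSqZeroExt.ext (by simp [hx]) (by simp [hx, hy]))⟩
  have key : α = α' := Algebra.FormallyUnramified.ext' (R := MvPolynomial (Fin g) K)
    (fstK (K := K) (L := L) (M := M)).toRingHom hn α α' hfst
  exact sect_injective F.hV (tan_in F h) (tan_in F h')
    (RingHom.ext fun s => AlgHom.congr_fun key s)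

theorem exists_vec (v : Fin g → M) :
    ∃ t : X.H (TrivSqZeroExt L M), Tan X t ∧ vec F t = v := by
  let e := sect (one_in_field (L := L) F)
  have he : ∀ c, e (F.φ (MvPolynomial.C c)) = algebraMap K L c := fun c => by
    rw [show F.φ (MvPolynomial.C c) = Var.baseHom X.f F.V c from RingHom.congr_fun F.base c]
    exact sect_base F.hV _ c
  let β : MvPolynomial (Fin g) K →+* TrivSqZeroExt L M :=
    MvPolynomial.eval₂Hom (algebraMap K _) fun i => inl (e (F.coord i)) + inr (v i)
  letI : Algebra (MvPolynomial (Fin g) K) (TrivSqZeroExt L M) := β.toAlgebra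
  letI : Algebra (MvPolynomial (Fin g) K) L := (e.comp F.φ).toAlgebra
  have hβ : (fstK (K := K) (L := L) (M := M)).toRingHom.comp β = e.comp F.φ :=
    MvPolynomial.ringHom_ext
      (fun c => by
        rw [RingHom.comp_apply, MvPolynomial.eval₂Hom_C, RingHom.comp_apply, he]
        exact (fstK (M := M)).commutes c)
      (fun i => by
        rw [RingHom.comp_apply, MvPolynomial.eval₂Hom_X']
        show (inl (e (F.coord i)) + inr (v i) : TrivSqZeroExt L M).fst = e (F.φ _)
        rw [fst_add, fst_inl, fst_inr, add_zero]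
        rfl)
  let π : TrivSqZeroExt L M →ₐ[MvPolynomial (Fin g) K] L :=
    { (fstK (K := K) (L := L) (M := M)).toRingHom with commutes' := RingHom.congr_fun hβ }
  let e' : Γ(X.A, F.V) →ₐ[MvPolynomial (Fin g) K] L := { e with commutes' := fun c => rfl }
  have hn : IsNilpotent (RingHom.ker (π : TrivSqZeroExt L M →+* L)) :=
    ⟨2, by
      rw [pow_two, Ideal.zero_eq_bot, ← le_bot_iff, Ideal.mul_le]
      intro x hx y hy
      rw [RingHom.mem_ker] at hx hy
      change x.fst = 0 at hx
      change y.fst = 0 at hy
      exact Ideal.mem_bot.2 (TrivSqZeroExt.ext (by simp [hx]) (by simp [hx, hy]))⟩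
  have hs : Function.Surjective π := fun c => ⟨inl c, fst_inl M c⟩
  let a := Algebra.FormallySmooth.liftOfSurjective e' π hs hn
  have ha : a.toRingHom.comp (Var.baseHom X.f F.V) = algebraMap K _ := RingHom.ext fun c => by
    rw [RingHom.comp_apply, ← RingHom.congr_fun F.base c, RingHom.comp_apply]
    exact (a.commutes (MvPolynomial.C c)).trans (MvPolynomial.eval₂Hom_C _ _ c)
  have hin := ofSect_in F.hV a.toRingHom ha
  have hval : ∀ s, val F.V (ofSect F.hV a.toRingHom ha) s = a s := fun s => by
    rw [val_eq hin, sect_ofSect]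
    rfl
  refine ⟨ofSect F.hV a.toRingHom ha, ?_, funext fun i => ?_⟩
  · refine ext_val F.hV (In.res hin _) (one_in_field F) fun s => ?_
    rw [val_res F.hV _ hin, hval, val_eq (one_in_field F)]
    exact Algebra.FormallySmooth.liftOfSurjective_apply e' π hs hn s
  · rw [vec, der_one, hval]
    have h1 : a (F.coord i) = β (MvPolynomial.X i) := a.commutes (MvPolynomial.X i)
    rw [h1, MvPolynomial.eval₂Hom_X', snd_add, snd_inl, snd_inr, zero_add]

theorem vec_one : vec F (1 : X.H (TrivSqZeroExt L L)) = 0 := funext fun i => by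
  have h := (der_prod F.hV (one_in_field F) (fun _ : Fin 0 => (1 : X.H (TrivSqZeroExt L L)))
    (fun _ => Tan.one) ∅ (F.coord i)).2
  simpa [vec] using h

theorem vec_mul {t t' : X.H (TrivSqZeroExt L L)} (h : Tan X t) (h' : Tan X t') :
    vec F (t * t') = vec F t + vec F t' :=
  funext fun _ => der_mul F.hV (one_in_field F) h h' _

/-! ### The logarithmic derivative -/

/-- A derivation as a map to the dual numbers. -/
def sigmaD (D : Derivation K L L) : L →ₐ[K] TrivSqZeroExt L L where
  toFun x := inl x + inr (D x)
  map_one' := TrivSqZeroExt.ext (by simp) (by simp)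
  map_mul' x y := TrivSqZeroExt.ext (by simp) (by simp [Derivation.leibniz]; ring)
  map_zero' := TrivSqZeroExt.ext (by simp) (by simp)
  map_add' x y := TrivSqZeroExt.ext (by simp) (by simp)
  commutes' c := TrivSqZeroExt.ext (by simp [algebraMap_eq_inl']) (by simp [algebraMap_eq_inl'])

theorem fst_sigmaD (D : Derivation K L L) (x : L) : (sigmaD D x).fst = x := by simp [sigmaD]

theorem snd_sigmaD (D : Derivation K L L) (x : L) : (sigmaD D x).snd = D x := by simp [sigmaD]

/-- The tangent vector of a point along a derivation. -/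
def tD (D : Derivation K L L) (x : X.H L) : X.H (TrivSqZeroExt L L) :=
  X.res (sigmaD D) x * (X.res inlK x)⁻¹

theorem tan_tD (D : Derivation K L L) (x : X.H L) : Tan X (tD D x) := by
  rw [Tan, tD, map_mul, map_inv, res_res, res_res,
    show fstK.comp (sigmaD D) = AlgHom.id K L from AlgHom.ext (fst_sigmaD D),
    show (fstK (M := L)).comp (inlK (K := K) (L := L)) = AlgHom.id K L from
      AlgHom.ext fun c => fst_inl L c, mul_inv_cancel]

theorem tD_mul (D : Derivation K L L) (x y : X.H L) : tD D (x * y) = tD D x * tD D y := by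
  rw [tD, tD, tD, map_mul, map_mul, _root_.mul_inv, mul_mul_mul_comm]

theorem translate_tD (D : Derivation K L L) (x : X.H L) :
    X.res inlK x * tD D x = X.res (sigmaD D) x := by
  rw [tD, mul_comm, inv_mul_cancel_right]

variable [IsAlgClosed K]

/-- The logarithmic derivative of points along a derivation. -/
def dlog (D : Derivation K L L) : (X.space).Pt L →+ (Fin g → L) :=
  AddMonoidHom.mk' (fun p => vec F (tD D (X.toH p))) fun p q => by
    rw [toH_add, tD_mul, vec_mul F (tan_tD D _) (tan_tD D _)]

theorem dlog_eq_zero (D : Derivation K L L) (p : (X.space).Pt L) :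
    dlog F D p = 0 ↔ ∀ a, D (p.φ a) = 0 := by
  obtain ⟨V, hV, hq, -⟩ := Var.exists_chart X.f g p.q
  have hx := toH_in (X := X) hq
  have h1 : dlog F D p = 0 ↔ X.res (sigmaD D) (X.toH p) = X.res inlK (X.toH p) := by
    show vec F (tD D (X.toH p)) = 0 ↔ _
    refine ⟨fun h => mul_inv_eq_one.1 (vec_injective F (tan_tD D _) Tan.one (h.trans (vec_one F).symm)),
      fun h => ?_⟩
    rw [tD, h, mul_inv_cancel, vec_one]
  have hval : ∀ s, val V (X.toH p) s = X.stk p (X.A.presheaf.germ V p.q hq s) := fun s => by
    rw [val_eq hx]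
    exact sect_toH hV hq s
  refine h1.trans ⟨fun h a => ?_, fun h => ext_val hV (In.res hx _) (In.res hx _) fun s => ?_⟩
  · let E : IntermediateField K L :=
      { carrier := {x | D x = 0}
        mul_mem' := fun {x y} (hx : D x = 0) (hy : D y = 0) => by
          show D (x * y) = 0
          rw [Derivation.leibniz, hx, hy, smul_zero, smul_zero, add_zero]
        add_mem' := fun {x y} (hx : D x = 0) (hy : D y = 0) => by
          show D (x + y) = 0
          rw [map_add, hx, hy, add_zero]
        algebraMap_mem' := fun c => D.map_algebraMap c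
        inv_mem' := fun x (hx : D x = 0) => by
          show D x⁻¹ = 0
          rw [Derivation.leibniz_inv, hx, smul_zero] }
    have hle : IntermediateField.adjoin K (Set.range (res₀ p hq rfl)) ≤ E := by
      refine IntermediateField.adjoin_le_iff.2 ?_
      rintro _ ⟨s, rfl⟩
      have h2 : val V (X.res (sigmaD D) (X.toH p)) s = val V (X.res inlK (X.toH p)) s := by rw [h]
      rw [val_res hV _ hx, val_res hV _ hx, hval] at h2
      have h3 := congrArg TrivSqZeroExt.snd h2
      rw [snd_sigmaD] at h3
      exact h3.trans (snd_inl L _)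
    exact hle (adjoin_res₀ p hV hq rfl (IntermediateField.subset_adjoin K _ ⟨a, rfl⟩))
  · rw [val_res hV _ hx, val_res hV _ hx, hval]
    exact TrivSqZeroExt.ext (by rw [fst_sigmaD]; exact (fst_inl L _).symm)
      (by rw [snd_sigmaD]; exact (h _).trans (snd_inl L _).symm)

/-! ### The gradient -/

variable (X) in
/-- The generic point. -/
def genH : X.H X.FF := X.toH (Space.genPt (V := X.space))

theorem gen_mem : genericPoint X.A ∈ F.V :=
  ((genericPoint_spec X.A).mem_open_set_iff F.V.isOpen).2 ⟨_, trivial, F.one_in⟩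

theorem genH_in : (genH X).In F.V := toH_in (p := Space.genPt (V := X.space)) (gen_mem F)

theorem val_genH (s : Γ(X.A, F.V)) : val F.V (genH X) s = X.A.germToFunctionField F.V s := by
  rw [val_eq (genH_in F)]
  exact (sect_toH (p := Space.genPt (V := X.space)) F.hV (gen_mem F) s).trans (toN_germ (gen_mem F) s)

/-- The unit tangent vectors. -/
def tau (i : Fin g) : X.H (TrivSqZeroExt X.FF X.FF) :=
  (exists_vec (L := X.FF) F (Pi.single i (1 : X.FF))).choose

theorem tan_tau (i : Fin g) : Tan X (tau F i) :=
  (exists_vec (L := X.FF) F (Pi.single i (1 : X.FF))).choose_spec.1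

theorem vec_tau (i : Fin g) : vec F (tau F i) = Pi.single i (1 : X.FF) :=
  (exists_vec (L := X.FF) F (Pi.single i (1 : X.FF))).choose_spec.2

theorem fst_gen (i : Fin g) (s : Γ(X.A, F.V)) :
    (sect (translate_in (genH_in F) (tan_tau F i)) s).fst = X.A.germToFunctionField F.V s := by
  rw [← val_eq (translate_in (genH_in F) (tan_tau F i)),
    fst_translate F.hV (genH_in F) (tan_tau F i), val_genH]

/-- The function field acting on the generic point moved along a unit tangent vector. -/
def gradHom (i : Fin g) : X.FF →+* TrivSqZeroExt X.FF X.FF :=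
  haveI : IsFractionRing Γ(X.A, F.V) X.FF :=
    functionField_isFractionRing_of_isAffineOpen X.A F.V F.hV
  IsLocalization.lift (M := nonZeroDivisors Γ(X.A, F.V))
    (g := sect (translate_in (genH_in F) (tan_tau F i))) fun y => by
      rw [isUnit_iff_isUnit_fst, fst_gen, isUnit_iff_ne_zero]
      exact fun h => nonZeroDivisors.ne_zero y.2
        ((map_eq_zero_iff _ (Scheme.germToFunctionField_injective X.A F.V)).1 h)

theorem gradHom_germ (i : Fin g) (s : Γ(X.A, F.V)) :
    gradHom F i (X.A.germToFunctionField F.V s) =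
      sect (translate_in (genH_in F) (tan_tau F i)) s :=
  haveI : IsFractionRing Γ(X.A, F.V) X.FF :=
    functionField_isFractionRing_of_isAffineOpen X.A F.V F.hV
  IsLocalization.lift_eq _ s

theorem fst_gradHom (i : Fin g) (h : X.FF) : (gradHom F i h).fst = h := by
  haveI : IsFractionRing Γ(X.A, F.V) X.FF :=
    functionField_isFractionRing_of_isAffineOpen X.A F.V F.hV
  have e : (fstK (K := K) (L := X.FF) (M := X.FF)).toRingHom.comp (gradHom F i) = RingHom.id _ :=
    IsLocalization.ringHom_ext (nonZeroDivisors Γ(X.A, F.V)) (RingHom.ext fun s => by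
      show (gradHom F i (X.A.germToFunctionField F.V s)).fst = X.A.germToFunctionField F.V s
      rw [gradHom_germ, fst_gen])
  exact RingHom.congr_fun e h

/-- The gradient. -/
def grad (h : X.FF) (i : Fin g) : X.FF := (gradHom F i h).snd

theorem grad_mul (a b : X.FF) (i : Fin g) :
    grad F (a * b) i = a * grad F b i + b * grad F a i := by
  rw [grad, map_mul, snd_mul, fst_gradHom, fst_gradHom, op_smul_eq_smul, smul_eq_mul, smul_eq_mul]
  rfl

theorem grad_germ (s : Γ(X.A, F.V)) (i : Fin g) :
    grad F (X.A.germToFunctionField F.V s) i = der F.V (genH X) (tau F i) s := by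
  rw [grad, gradHom_germ, der, val_eq (translate_in (genH_in F) (tan_tau F i))]

theorem grad_spec_aux (D : Derivation K L L) (ψ : X.FF →ₐ[K] L) (h : X.FF) :
    D (ψ h) = ∑ i, ψ (grad F h i) * dlog F D ((Space.genPt (V := X.space)).map ψ) i := by
  set v := vec F (tD D (X.res ψ (genH X))) with hv
  have hv' : dlog F D ((Space.genPt (V := X.space)).map ψ) = v := by
    show vec F (tD D (X.toH _)) = v
    rw [toH_map, hv]
    rfl
  rw [hv']
  have hx : (X.res ψ (genH X)).In F.V := In.res (genH_in F) ψ
  let w : Fin g → X.H (TrivSqZeroExt L L) := fun i =>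
    X.res (mapK (v i • LinearMap.id)) (X.res (mapField ψ) (tau F i))
  have hw : ∀ i, Tan X (w i) := fun i => ((tan_tau F i).mapField ψ).map _
  have hder : ∀ (x : X.H X.FF) (_ : x.In F.V) (i : Fin g) (s : Γ(X.A, F.V)),
      der F.V (X.res ψ x) (w i) s = v i * ψ (der F.V x (tau F i) s) := fun x hx i s => by
    rw [der_map F.hV (In.res hx ψ) ((tan_tau F i).mapField ψ),
      der_mapField F.hV ψ hx (tan_tau F i)]
    rfl
  have hprod : tD D (X.res ψ (genH X)) = ∏ i, w i := by
    refine vec_injective F (tan_tD D _)
      (der_prod F.hV (one_in_field F) w hw Finset.univ 0).1 ?_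
    funext j
    show v j = _
    rw [vec, (der_prod F.hV (one_in_field F) w hw Finset.univ (F.coord j)).2,
      ← map_one (X.res ψ)]
    simp only [hder 1 (one_in_field F)]
    have ht : ∀ i, der F.V (1 : X.H X.FF) (tau F i) (F.coord j) =
        (Pi.single i (1 : X.FF) : Fin g → X.FF) j := fun i => congrFun (vec_tau F i) j
    simp [ht, Pi.single_apply]
  have hS : ∀ s, D (ψ (X.A.germToFunctionField F.V s)) =
      ∑ i, ψ (grad F (X.A.germToFunctionField F.V s) i) * v i := fun s => by
    have h1 : der F.V (X.res ψ (genH X)) (tD D (X.res ψ (genH X))) s =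
        D (ψ (X.A.germToFunctionField F.V s)) := by
      rw [der, translate_tD, val_res F.hV _ hx, snd_sigmaD, val_res F.hV _ (genH_in F), val_genH]
    rw [← h1, hprod, (der_prod F.hV hx w hw Finset.univ s).2]
    refine Finset.sum_congr rfl fun i _ => ?_
    rw [hder _ (genH_in F), grad_germ, mul_comm]
  haveI : IsFractionRing Γ(X.A, F.V) X.FF :=
    functionField_isFractionRing_of_isAffineOpen X.A F.V F.hV
  obtain ⟨a, b, hb, e⟩ := IsFractionRing.div_surjective (A := Γ(X.A, F.V)) h
  have ea := hS a
  have eb := hS b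
  set a' := X.A.germToFunctionField F.V a
  set b' := X.A.germToFunctionField F.V b
  have hb' : b' ≠ 0 := fun h0 => nonZeroDivisors.ne_zero hb
    ((map_eq_zero_iff _ (Scheme.germToFunctionField_injective X.A F.V)).1 h0)
  have hab : a' = h * b' := by
    rw [← e]
    exact (div_mul_cancel₀ _ hb').symm
  rw [hab] at ea
  simp only [grad_mul, map_add, map_mul, add_mul, mul_assoc, Finset.sum_add_distrib,
    ← Finset.mul_sum, Derivation.leibniz, smul_eq_mul, ← eb] at ea
  exact mul_left_cancel₀ ((map_ne_zero ψ.toRingHom).2 hb') (add_left_cancel ea)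

end FLTAgent.AV.AbVar
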