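import Fermat.Agent.AV.Scheme.Integral

/-!
# Points of an abelian variety with values in algebras

The group of points with values in an algebra, and the description of the points which land in an
affine open set as ring maps out of its functions.
-/

set_option autoImplicit false
set_option linter.style.haveILetI false
set_option linter.unusedSectionVars false

noncomputable section

universe u

open CategoryTheory AlgebraicGeometry NeronModelInfra GoodReductionJacobian
  GoodReductionJacobian.RelativeGroupLaw TopologicalSpace IsLocalRing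

namespace FLTAgent.AV

/-- An abelian variety of dimension `g` with a commutative group law. -/
structure AbVar (K : Type u) [Field K] (g : ℕ) where
  A : Scheme.{u}
  f : A ⟶ Spec (CommRingCat.of K)
  L : RelativeGroupLaw K f
  comm : L.IsCommutative
  bundle : AbelianSchemePropertyBundle K f
  smooth : SmoothOfRelativeDimension g f

namespace AbVar

variable {K : Type u} [Field K] {g : ℕ} (X : AbVar K g)

instance : IsProper X.f := X.bundle.proper

instance : SmoothOfRelativeDimension g X.f := X.smooth

instance [IsAlgClosed K] : IsIntegral X.A := Var.isIntegral X.f X.bundle g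

/-- The structure map of the spectrum of an algebra. -/
def bs (K : Type u) [Field K] (R : Type u) [CommRing R] [Algebra K R] :
    Spec (CommRingCat.of R) ⟶ Spec (CommRingCat.of K) :=
  Spec.map (CommRingCat.ofHom (algebraMap K R))

theorem bs_self : bs K K = 𝟙 (Spec (CommRingCat.of K)) := by
  rw [bs, Algebra.algebraMap_self, CommRingCat.ofHom_id, Spec.map_id]

/-- The points with values in an algebra. -/
def H (R : Type u) [CommRing R] [Algebra K R] : Type u := SchemeHomOver (bs K R) X.f

variable {X}
variable {R R' R'' : Type u} [CommRing R] [Algebra K R] [CommRing R'] [Algebra K R']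
  [CommRing R''] [Algebra K R'']

/-- The morphism underlying a point. -/
def H.hom (x : X.H R) : Spec (CommRingCat.of R) ⟶ X.A := x.1

theorem H.hom_over (x : X.H R) : x.hom ≫ X.f = bs K R := x.2

@[ext]
theorem H.ext {x y : X.H R} (h : x.hom = y.hom) : x = y := Subtype.ext h

instance : CommGroup (X.H R) :=
  { pointGroup X.L (bs K R) with mul_comm := X.comm (bs K R) }

theorem H.mul_def (x y : X.H R) : x * y = X.L.mul (bs K R) x y := rfl

theorem H.one_def : (1 : X.H R) = X.L.one (bs K R) := rfl

theorem specMap_over (σ : R →ₐ[K] R') :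
    Spec.map (CommRingCat.ofHom σ.toRingHom) ≫ bs K R = bs K R' := by
  rw [bs, bs, ← Spec.map_comp, ← CommRingCat.ofHom_comp]
  exact congrArg (fun h => Spec.map (CommRingCat.ofHom h)) (RingHom.ext σ.commutes)

variable (X) in
/-- The functoriality of points. -/
def res (σ : R →ₐ[K] R') : X.H R →* X.H R' where
  toFun := schemeHomOverComp (Spec.map (CommRingCat.ofHom σ.toRingHom)) (specMap_over σ)
  map_one' := X.L.one_natural (bs K R) (bs K R') _ (specMap_over σ)
  map_mul' := X.L.mul_natural (bs K R) (bs K R') _ (specMap_over σ)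

theorem res_hom (σ : R →ₐ[K] R') (x : X.H R) :
    (X.res σ x).hom = Spec.map (CommRingCat.ofHom σ.toRingHom) ≫ x.hom := rfl

theorem res_res (σ : R →ₐ[K] R') (τ : R' →ₐ[K] R'') (x : X.H R) :
    X.res τ (X.res σ x) = X.res (τ.comp σ) x := by
  apply H.ext
  rw [res_hom, res_hom, res_hom, ← Category.assoc, ← Spec.map_comp, ← CommRingCat.ofHom_comp]
  rfl

theorem res_id (x : X.H R) : X.res (AlgHom.id K R) x = x := by
  apply H.ext
  rw [res_hom, AlgHom.toRingHom_eq_coe, AlgHom.id_toRingHom, CommRingCat.ofHom_id, Spec.map_id,
    Category.id_comp]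

/-! ### Points in an affine open set -/

variable {V : X.A.Opens} (hV : IsAffineOpen V)

include hV in
theorem fromSpec_f :
    hV.fromSpec ≫ X.f = Spec.map (CommRingCat.ofHom (Var.baseHom X.f V)) := by
  rw [← IsAffineOpen.SpecMap_appLE_fromSpec X.f (isAffineOpen_top _) hV (i := le_top),
    IsAffineOpen.fromSpec_top, Scheme.isoSpec_Spec_inv, ← Spec.map_comp]
  rfl

variable [IsLocalRing R] [IsLocalRing R']

/-- The point lies in the open set. -/
def H.In (x : X.H R) (V : X.A.Opens) : Prop := x.hom (closedPoint R) ∈ V

variable {x : X.H R} (hx : x.In V)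

/-- The ring map attached to a point in an affine open set. -/
def sect : Γ(X.A, V) →+* R :=
  (X.A.presheaf.germ V _ hx ≫
    Scheme.stalkClosedPointTo (R := CommRingCat.of R) x.hom).hom

include hV in
theorem specMap_sect : Spec.map (CommRingCat.ofHom (sect hx)) ≫ hV.fromSpec = x.hom := by
  have h := Scheme.Spec_stalkClosedPointTo_fromSpecStalk (R := CommRingCat.of R) x.hom
  rw [← hV.fromSpecStalk_eq_fromSpecStalk hx] at h
  rw [sect, CommRingCat.ofHom_hom, Spec.map_comp, Category.assoc]
  exact h

include hV in
theorem eq_sect {a : Γ(X.A, V) →+* R} (ha : Spec.map (CommRingCat.ofHom a) ≫ hV.fromSpec = x.hom) :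
    a = sect hx := by
  rw [← specMap_sect hV hx, cancel_mono] at ha
  exact congrArg CommRingCat.Hom.hom (Spec.map_injective ha)

include hV in
theorem sect_base (c : K) : sect hx (Var.baseHom X.f V c) = algebraMap K R c := by
  have h := x.hom_over
  rw [← specMap_sect hV hx, Category.assoc, fromSpec_f hV, ← Spec.map_comp, bs] at h
  exact RingHom.congr_fun (congrArg CommRingCat.Hom.hom (Spec.map_injective h)) c

include hV in
theorem sect_injective {y : X.H R} (hy : y.In V) (h : sect hx = sect hy) : x = y :=
  H.ext (by rw [← specMap_sect hV hx, h, specMap_sect hV hy])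

/-- The point of a ring map. -/
def ofSect (a : Γ(X.A, V) →+* R) (ha : a.comp (Var.baseHom X.f V) = algebraMap K R) : X.H R :=
  ⟨Spec.map (CommRingCat.ofHom a) ≫ hV.fromSpec, by
    rw [Category.assoc, fromSpec_f hV, ← Spec.map_comp, ← CommRingCat.ofHom_comp, ha, bs]⟩

theorem ofSect_in (a : Γ(X.A, V) →+* R) (ha : a.comp (Var.baseHom X.f V) = algebraMap K R) :
    (ofSect hV a ha).In V := by
  show hV.fromSpec (Spec.map (CommRingCat.ofHom a) (closedPoint R)) ∈ (V : Set X.A)
  rw [← hV.range_fromSpec]
  exact Set.mem_range_self _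

theorem sect_ofSect (a : Γ(X.A, V) →+* R) (ha : a.comp (Var.baseHom X.f V) = algebraMap K R) :
    sect (ofSect_in hV a ha) = a :=
  (eq_sect hV _ rfl).symm

include hx in
theorem In.res (σ : R →ₐ[K] R') : (X.res σ x).In V := by
  have h := Scheme.preimage_eq_top_of_closedPoint_mem (R := CommRingCat.of R) x.hom hx
  have h' : Spec.map (CommRingCat.ofHom σ.toRingHom) (closedPoint R') ∈ x.hom ⁻¹ᵁ V := by
    rw [h]; trivial
  exact h'

include hV in
theorem sect_res (σ : R →ₐ[K] R') (h : (X.res σ x).In V) :
    sect h = σ.toRingHom.comp (sect hx) :=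
  (eq_sect hV h (by
    rw [CommRingCat.ofHom_comp, Spec.map_comp, Category.assoc, specMap_sect hV hx]
    rfl)).symm

end AbVar

end FLTAgent.AV
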