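import Fermat.Agent.AV.Scheme.Chart
import Fermat.Prelude.Def_JacJ1Iface
import Fermat.Prelude.Def_GoodReductionJacobian_RelativeGroupLawKernel

/-!
# An abelian scheme over an algebraically closed field is integral

It is reduced as it is smooth, and irreducible as translations act transitively on its closed
points and it is connected.
-/

set_option autoImplicit false
set_option linter.style.haveILetI false
set_option linter.unusedSectionVars false

noncomputable section

universe u

open CategoryTheory AlgebraicGeometry NeronModelInfra GoodReductionJacobian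
  GoodReductionJacobian.RelativeGroupLaw TopologicalSpace

namespace FLTAgent.AV.Var

variable {K : Type u} [Field K] {A : Scheme.{u}} (f : A ⟶ Spec (CommRingCat.of K))

/-- The constants in the functions on an open set. -/
def baseHom (V : A.Opens) : K →+* Γ(A, V) :=
  ((Scheme.ΓSpecIso (CommRingCat.of K)).inv ≫ f.appLE ⊤ V le_top).hom

theorem exists_chart (g : ℕ) [SmoothOfRelativeDimension g f] (x : A) :
    ∃ V : A.Opens, IsAffineOpen V ∧ x ∈ V ∧ ∃ φ : MvPolynomial (Fin g) K →+* Γ(A, V),
      φ.comp MvPolynomial.C = baseHom f V ∧ φ.Etale := by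
  obtain ⟨U, -, V, hV, hx, e, h⟩ :=
    SmoothOfRelativeDimension.exists_isStandardSmoothOfRelativeDimension (n := g) (f := f) x
  obtain rfl : U = ⊤ := top_unique fun y _ => by
    rw [Subsingleton.elim (α := PrimeSpectrum K) y (f x)]
    exact e hx
  refine ⟨V, hV, hx, RingHom.IsStandardSmoothOfRelativeDimension.exists_etale_mvPolynomial ?_⟩
  exact (RingHom.isStandardSmoothOfRelativeDimension_respectsIso.cancel_left_isIso
    (Scheme.ΓSpecIso (CommRingCat.of K)).inv (f.appLE ⊤ V le_top)).2 h

theorem isReduced (g : ℕ) [SmoothOfRelativeDimension g f] : IsReduced A := by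
  haveI : ∀ x : A, _root_.IsReduced (A.presheaf.stalk x) := fun x => by
    obtain ⟨V, hV, hx, φ, hC, hφ⟩ := exists_chart f g x
    letI : Algebra (MvPolynomial (Fin g) K) Γ(A, V) := φ.toAlgebra
    haveI : Algebra.Etale (MvPolynomial (Fin g) K) Γ(A, V) := hφ
    letI : Algebra Γ(A, V) (A.presheaf.stalk x) := (A.presheaf.germ V x hx).hom.toAlgebra
    haveI : IsLocalization.AtPrime (A.presheaf.stalk x) (hV.primeIdealOf ⟨x, hx⟩).asIdeal :=
      hV.isLocalization_stalk ⟨x, hx⟩
    exact isReduced_localizationPreserves (hV.primeIdealOf ⟨x, hx⟩).asIdeal.primeCompl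
      (A.presheaf.stalk x) (Chart.isReduced K g Γ(A, V))
  exact isReduced_of_isReduced_stalk A

/-! ### Translations -/

variable {f} (L : RelativeGroupLaw K f)

/-- The translation by a rational point. -/
def transl (z : SchemeHomOver (𝟙 (Spec (CommRingCat.of K))) f) : A ⟶ A :=
  (L.mul f idPoint (schemeHomOverComp f (Category.comp_id f) z)).1

theorem transl_over (z : SchemeHomOver (𝟙 (Spec (CommRingCat.of K))) f) : transl L z ≫ f = f :=
  (L.mul f idPoint (schemeHomOverComp f (Category.comp_id f) z)).2

theorem transl_comp (z w : SchemeHomOver (𝟙 (Spec (CommRingCat.of K))) f) :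
    transl L z ≫ transl L w = transl L (L.mul _ z w) := by
  have h := congrArg Subtype.val (L.mul_natural f f (transl L z) (transl_over L z) idPoint
    (schemeHomOverComp f (Category.comp_id f) w))
  have h1 : schemeHomOverComp (transl L z) (transl_over L z) idPoint =
      L.mul f idPoint (schemeHomOverComp f (Category.comp_id f) z) :=
    Subtype.ext (Category.comp_id _)
  have h2 : schemeHomOverComp (transl L z) (transl_over L z)
      (schemeHomOverComp f (Category.comp_id f) w) = schemeHomOverComp f (Category.comp_id f) w :=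
    Subtype.ext (by
      show transl L z ≫ f ≫ w.1 = f ≫ w.1
      rw [← Category.assoc, transl_over])
  rw [h1, h2, L.mul_assoc, ← L.mul_natural (𝟙 _) f f (Category.comp_id f)] at h
  exact h

theorem transl_one : transl L (L.one _) = 𝟙 A := by
  rw [transl, L.one_natural (𝟙 _) f f (Category.comp_id f), L.mul_one]

theorem isIso_transl (z : SchemeHomOver (𝟙 (Spec (CommRingCat.of K))) f) :
    IsIso (transl L z) :=
  ⟨transl L (L.inv _ z), by rw [transl_comp, L.mul_inv_cancel, transl_one],
    by rw [transl_comp, L.inv_mul_cancel, transl_one]⟩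

theorem comp_transl (p z : SchemeHomOver (𝟙 (Spec (CommRingCat.of K))) f) :
    p.1 ≫ transl L z = (L.mul _ p z).1 := by
  have h := congrArg Subtype.val (L.mul_natural f (𝟙 _) p.1 p.2 idPoint
    (schemeHomOverComp f (Category.comp_id f) z))
  have h1 : schemeHomOverComp p.1 p.2 idPoint = p := Subtype.ext (Category.comp_id _)
  have h2 : schemeHomOverComp p.1 p.2 (schemeHomOverComp f (Category.comp_id f) z) = z :=
    Subtype.ext (by
      show p.1 ≫ f ≫ z.1 = z.1
      rw [← Category.assoc, p.2, Category.id_comp])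
  rw [h1, h2] at h
  exact h

variable (f) in
theorem isIntegral [IsAlgClosed K] (hA : AbelianSchemePropertyBundle K f) (g : ℕ)
    [SmoothOfRelativeDimension g f] : IsIntegral A := by
  haveI := hA.proper
  obtain ⟨L⟩ := hA.hasGroupLaw
  haveI := isReduced f g
  haveI : JacobsonSpace A := LocallyOfFiniteType.jacobsonSpace f
  haveI : CompactSpace A := QuasiCompact.compactSpace_of_compactSpace f
  haveI : AlgebraicGeometry.IsNoetherian A :=
    { __ := LocallyOfFiniteType.isLocallyNoetherian f }
  have huniv : f.base ⁻¹' {IsLocalRing.closedPoint K} = Set.univ :=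
    Set.eq_univ_of_forall fun x => Subsingleton.elim (α := PrimeSpectrum K) _ _
  have hconn : _root_.IsConnected (Set.univ : Set A) := huniv ▸ hA.connectedFibres _
  haveI : Nonempty A := ⟨hconn.nonempty.choose⟩
  haveI : PreconnectedSpace A := ⟨hconn.2⟩
  have hfin := NoetherianSpace.finite_irreducibleComponents (α := A)
  obtain ⟨Z, hZ⟩ : (irreducibleComponents A).Nonempty :=
    ⟨_, irreducibleComponent_mem_irreducibleComponents (Classical.arbitrary A)⟩
  classical
  have hothers : IsClosed (⋃₀ (irreducibleComponents A \ {Z})) := by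
    rw [Set.sUnion_eq_biUnion]
    exact hfin.sdiff.isClosed_biUnion fun W hW => isClosed_of_mem_irreducibleComponents W hW.1
  have hne : ((⋃₀ (irreducibleComponents A \ {Z}))ᶜ).Nonempty := by
    rw [Set.nonempty_compl]
    intro h
    obtain ⟨W, hW, hZW⟩ := isIrreducible_iff_sUnion_isClosed.1 hZ.1
      (hfin.sdiff (t := {Z})).toFinset
      (fun W hW => isClosed_of_mem_irreducibleComponents W ((Set.Finite.mem_toFinset _).1 hW).1)
      (by rw [Set.Finite.coe_toFinset, h]; exact Set.subset_univ _)
    have hW' := (Set.Finite.mem_toFinset _).1 hW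
    exact hW'.2 ((hZ.2 hW'.1.1 hZW).antisymm hZW)
  obtain ⟨x₀, hx₀, hx₀c⟩ := nonempty_inter_closedPoints hne hothers.isOpen_compl.isLocallyClosed
  have hx₀' : ∀ W ∈ irreducibleComponents A, x₀ ∈ W → W = Z := fun W hW hxW =>
    by_contra fun h => hx₀ ⟨W, ⟨hW, h⟩, hxW⟩
  have key : ∀ y ∈ closedPoints A, ∀ Z₁ ∈ irreducibleComponents A, ∀ Z₂ ∈ irreducibleComponents A,
      y ∈ Z₁ → y ∈ Z₂ → Z₁ = Z₂ := by
    intro y hy Z₁ hZ₁ Z₂ hZ₂ h₁ h₂
    let p : SchemeHomOver (𝟙 (Spec (CommRingCat.of K))) f :=
      ⟨pointOfClosedPoint f x₀ hx₀c, pointOfClosedPoint_comp f x₀ hx₀c⟩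
    let q : SchemeHomOver (𝟙 (Spec (CommRingCat.of K))) f :=
      ⟨pointOfClosedPoint f y hy, pointOfClosedPoint_comp f y hy⟩
    let z := L.mul _ (L.inv _ p) q
    haveI := isIso_transl L z
    have hmap : transl L z x₀ = y := by
      have h : p.1 ≫ transl L z = q.1 := by
        rw [comp_transl, ← L.mul_assoc, L.mul_inv_cancel, L.one_mul]
      let pt : Spec (CommRingCat.of K) := IsLocalRing.closedPoint (CommRingCat.of K)
      calc transl L z x₀ = transl L z (p.1 pt) :=
            congrArg _ (pointOfClosedPoint_apply f x₀ hx₀c pt).symm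
        _ = (p.1 ≫ transl L z) pt := (Scheme.Hom.comp_apply _ _ _).symm
        _ = q.1 pt := by rw [h]
        _ = y := pointOfClosedPoint_apply f y hy pt
    have hemb := (transl L z).isOpenEmbedding
    have hsurj : Function.Surjective (transl L z) := (transl L z).homeomorph.surjective
    have hpre : ∀ W ∈ irreducibleComponents A, y ∈ W → transl L z ⁻¹' W = Z := fun W hW hyW =>
      hx₀' _ (preimage_mem_irreducibleComponents hW hemb ⟨y, hyW, x₀, hmap⟩)
        (show transl L z x₀ ∈ W by rw [hmap]; exact hyW)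
    rw [← Set.image_preimage_eq Z₁ hsurj, hpre Z₁ hZ₁ h₁, ← hpre Z₂ hZ₂ h₂,
      Set.image_preimage_eq Z₂ hsurj]
  have hZcl := isClosed_of_mem_irreducibleComponents Z hZ
  have hdisj : Zᶜ = ⋃₀ (irreducibleComponents A \ {Z}) := by
    refine Set.Subset.antisymm (fun a ha => ⟨irreducibleComponent a,
      ⟨irreducibleComponent_mem_irreducibleComponents a,
        fun h : irreducibleComponent a = Z => ha (h ▸ mem_irreducibleComponent)⟩,
      mem_irreducibleComponent⟩) ?_
    rintro a ⟨W, ⟨hW, hWZ⟩, haW⟩ haZ
    obtain ⟨y, ⟨hy₁, hy₂⟩, hyc⟩ := nonempty_inter_closedPoints (Z := W ∩ Z) ⟨a, haW, haZ⟩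
      ((isClosed_of_mem_irreducibleComponents W hW).inter hZcl).isLocallyClosed
    exact hWZ (key y hyc W hW Z hZ hy₁ hy₂)
  have hclopen : IsClopen Z := ⟨hZcl, by rw [← isClosed_compl_iff, hdisj]; exact hothers⟩
  have hZu : Z = Set.univ := hclopen.eq_univ hZ.1.1
  haveI : IrreducibleSpace A :=
    { toPreirreducibleSpace := ⟨hZu ▸ hZ.1.2⟩
      toNonempty := inferInstance }
  exact isIntegral_of_irreducibleSpace_of_isReduced A

end FLTAgent.AV.Var
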