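import Fermat.Agent.AV.Scheme.Space

/-!
# Local rings and specialisation of points of an abelian variety

Points of large transcendence degree have factorial local rings, valuation rings in codimension one,
and specialisation along a place exists and is unique as the variety is proper.
-/

set_option autoImplicit false
set_option linter.style.haveILetI false
set_option linter.unusedSectionVars false

noncomputable section

universe u

open CategoryTheory AlgebraicGeometry NeronModelInfra GoodReductionJacobian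
  GoodReductionJacobian.RelativeGroupLaw TopologicalSpace IsLocalRing

namespace FLTAgent.AV.AbVar

variable {K : Type u} [Field K] {g : ℕ} {X : AbVar K g} [IsAlgClosed K]
  {L : Type u} [Field L] [Algebra K L]

/-! ### Local rings -/

section Local

variable (p : (X.space).Pt L) {V : X.A.Opens} (hV : IsAffineOpen V) (hq : p.q ∈ V)
  [Algebra K Γ(X.A, V)] (hK : algebraMap K Γ(X.A, V) = Var.baseHom X.f V)

/-- The restriction of a point to the functions on an open set. -/
def res₀ : Γ(X.A, V) →ₐ[K] L :=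
  { (X.stk p).toRingHom.comp (X.A.presheaf.germ V p.q hq).hom with
    commutes' := fun c => by
      show X.stk p (X.A.presheaf.germ V p.q hq (algebraMap K Γ(X.A, V) c)) = _
      rw [hK, germ_baseHom hq]
      exact (X.stk p).commutes c }

include hV in
theorem ker_res₀ : RingHom.ker (res₀ p hq hK) = (hV.primeIdealOf ⟨p.q, hq⟩).asIdeal := by
  ext s
  haveI := isLocalHom_stk p
  letI : Algebra Γ(X.A, V) (X.A.presheaf.stalk p.q) :=
    (X.A.presheaf.germ V p.q hq).hom.toAlgebra
  haveI : IsLocalization.AtPrime (X.A.presheaf.stalk p.q) (hV.primeIdealOf ⟨p.q, hq⟩).asIdeal :=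
    hV.isLocalization_stalk ⟨p.q, hq⟩
  rw [← IsLocalization.AtPrime.to_map_mem_maximal_iff (X.A.presheaf.stalk p.q)
    (hV.primeIdealOf ⟨p.q, hq⟩).asIdeal s, IsLocalRing.mem_maximalIdeal, mem_nonunits_iff,
    ← isUnit_map_iff (X.stk p).toRingHom, isUnit_iff_ne_zero, not_not, RingHom.mem_ker]
  rfl

include hV in
theorem adjoin_res₀ :
    p.field ≤ IntermediateField.adjoin K (Set.range (res₀ p hq hK)) := by
  refine IntermediateField.adjoin_le_iff.2 ?_
  rintro _ ⟨a, rfl⟩
  obtain ⟨s, rfl⟩ := (X.eqv p.q).surjective a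
  letI : Algebra Γ(X.A, V) (X.A.presheaf.stalk p.q) :=
    (X.A.presheaf.germ V p.q hq).hom.toAlgebra
  haveI : IsLocalization.AtPrime (X.A.presheaf.stalk p.q) (hV.primeIdealOf ⟨p.q, hq⟩).asIdeal :=
    hV.isLocalization_stalk ⟨p.q, hq⟩
  obtain ⟨⟨u, w⟩, huw⟩ :=
    IsLocalization.surj (hV.primeIdealOf ⟨p.q, hq⟩).asIdeal.primeCompl s
  have hw : res₀ p hq hK w ≠ 0 := ((IsLocalization.map_units (X.A.presheaf.stalk p.q) w).map
    (X.stk p)).ne_zero
  have h : X.stk p s * res₀ p hq hK w = res₀ p hq hK u :=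
    (map_mul (X.stk p) s _).symm.trans (congrArg (X.stk p) huw)
  show X.stk p s ∈ IntermediateField.adjoin K (Set.range (res₀ p hq hK))
  rw [eq_div_of_mul_eq hw h]
  exact div_mem (IntermediateField.subset_adjoin K _ ⟨u, rfl⟩)
    (IntermediateField.subset_adjoin K _ ⟨_, rfl⟩)

include hV in
theorem le_trdeg_res₀ {m : ℕ} (h : p.DimGE m) :
    (m : Cardinal) ≤ Algebra.trdeg K (IntermediateField.adjoin K (Set.range (res₀ p hq hK))) :=
  h.trans (trdeg_le_of_injective (IntermediateField.inclusion (adjoin_res₀ p hV hq hK))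
    (IntermediateField.inclusion (adjoin_res₀ p hV hq hK)).injective)

end Local

theorem q_eq_gen (p : (X.space).Pt L) (h : p.DimGE g) : p.q = genericPoint X.A := by
  obtain ⟨V, hV, hq, φ, hC, hφ⟩ := Var.exists_chart X.f g p.q
  haveI : Nonempty V := ⟨⟨p.q, hq⟩⟩
  letI : Algebra K Γ(X.A, V) := (Var.baseHom X.f V).toAlgebra
  letI : Algebra (MvPolynomial (Fin g) K) Γ(X.A, V) := φ.toAlgebra
  haveI : Algebra.Etale (MvPolynomial (Fin g) K) Γ(X.A, V) := hφ
  haveI : IsScalarTower K (MvPolynomial (Fin g) K) Γ(X.A, V) :=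
    IsScalarTower.of_algebraMap_eq fun c => (RingHom.congr_fun hC c).symm
  have h1 := Chart.ker_eq_bot g (res₀ p hq rfl) (le_trdeg_res₀ p hV hq rfl h)
  rw [ker_res₀ p hV hq rfl] at h1
  have h2 : hV.primeIdealOf ⟨p.q, hq⟩ = genericPoint (Spec Γ(X.A, V)) := by
    rw [genericPoint_eq_bot_of_affine]
    exact PrimeSpectrum.ext h1
  rw [← hV.primeIdealOf_genericPoint] at h2
  have h3 := congrArg hV.fromSpec h2
  rwa [hV.fromSpec_primeIdealOf, hV.fromSpec_primeIdealOf] at h3

theorem exists_localization (p : (X.space).Pt L) {m : ℕ} (h : p.DimGE m) :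
    ∃ (S : Type u) (_ : CommRing S) (_ : Algebra K S) (_ : Algebra (MvPolynomial (Fin g) K) S)
      (_ : IsScalarTower K (MvPolynomial (Fin g) K) S) (_ : Algebra.Etale (MvPolynomial (Fin g) K) S)
      (_ : IsDomain S) (φ : S →ₐ[K] L) (q : Ideal S) (_ : q.IsPrime),
      (m : Cardinal) ≤ Algebra.trdeg K (IntermediateField.adjoin K (Set.range φ)) ∧
      q = RingHom.ker φ ∧ Nonempty (Localization.AtPrime q ≃+* X.loc p.q) := by
  obtain ⟨V, hV, hq, φ, hC, hφ⟩ := Var.exists_chart X.f g p.q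
  haveI : Nonempty V := ⟨⟨p.q, hq⟩⟩
  letI : Algebra K Γ(X.A, V) := (Var.baseHom X.f V).toAlgebra
  letI : Algebra (MvPolynomial (Fin g) K) Γ(X.A, V) := φ.toAlgebra
  haveI : Algebra.Etale (MvPolynomial (Fin g) K) Γ(X.A, V) := hφ
  haveI : IsScalarTower K (MvPolynomial (Fin g) K) Γ(X.A, V) :=
    IsScalarTower.of_algebraMap_eq fun c => (RingHom.congr_fun hC c).symm
  letI : Algebra Γ(X.A, V) (X.A.presheaf.stalk p.q) :=
    (X.A.presheaf.germ V p.q hq).hom.toAlgebra
  haveI : IsLocalization.AtPrime (X.A.presheaf.stalk p.q) (hV.primeIdealOf ⟨p.q, hq⟩).asIdeal :=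
    hV.isLocalization_stalk ⟨p.q, hq⟩
  exact ⟨Γ(X.A, V), inferInstance, inferInstance, inferInstance, inferInstance, hφ,
    inferInstance, res₀ p hq rfl, (hV.primeIdealOf ⟨p.q, hq⟩).asIdeal, inferInstance,
    le_trdeg_res₀ p hV hq rfl h, (ker_res₀ p hV hq rfl).symm,
    ⟨(IsLocalization.algEquiv (hV.primeIdealOf ⟨p.q, hq⟩).asIdeal.primeCompl _
      (X.A.presheaf.stalk p.q)).toRingEquiv.trans (X.eqv p.q).toRingEquiv⟩⟩

theorem ufd_loc (p : (X.space).Pt L) (m : ℕ) (hm : g ≤ m + 2) (h : p.DimGE m) :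
    UniqueFactorizationMonoid (X.loc p.q) := by
  obtain ⟨S, _, _, _, _, _, _, φ, q, _, hd, hq, ⟨e⟩⟩ := exists_localization p h
  exact e.toMulEquiv.uniqueFactorizationMonoid (Chart.ufd_localization g φ hm hd q hq)

theorem val_or_loc (p : (X.space).Pt L) (m : ℕ) (hm : g ≤ m + 1) (h : p.DimGE m) (x : X.FF) :
    x ∈ X.loc p.q ∨ x⁻¹ ∈ X.loc p.q := by
  obtain ⟨S, _, _, _, _, _, _, φ, q, _, hd, hq, ⟨e⟩⟩ := exists_localization p h
  obtain ⟨a, ha, b, hb, hb0, rfl⟩ := exists_frac_loc p.q x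
  rcases Chart.valuationRing_localization g φ hm hd q hq (e.symm ⟨a, ha⟩) (e.symm ⟨b, hb⟩) with
    ⟨c, hc⟩ | ⟨c, hc⟩
  · have h1 : b = a * (e c : X.FF) :=
      congrArg Subtype.val (by rw [← e.symm_apply_apply c, ← map_mul] at hc; exact e.symm.injective hc :
        (⟨b, hb⟩ : X.loc p.q) = ⟨a, ha⟩ * e c)
    right
    have ha0 : a ≠ 0 := fun h0 => hb0 (by rw [h1, h0, zero_mul])
    rw [inv_div, h1, mul_div_cancel_left₀ _ ha0]
    exact (e c).2
  · have h1 : a = b * (e c : X.FF) :=
      congrArg Subtype.val (by rw [← e.symm_apply_apply c, ← map_mul] at hc; exact e.symm.injective hc :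
        (⟨a, ha⟩ : X.loc p.q) = ⟨b, hb⟩ * e c)
    left
    rw [h1, mul_div_cancel_left₀ _ hb0]
    exact (e c).2

/-! ### Specialisation -/

theorem specMap_comp_assoc {R S T : Type u} [CommRing R] [CommRing S] [CommRing T] (a : R →+* S)
    (b : S →+* T) {Z : Scheme.{u}} (r : Spec (CommRingCat.of R) ⟶ Z) :
    Spec.map (CommRingCat.ofHom (b.comp a)) ≫ r =
      Spec.map (CommRingCat.ofHom b) ≫ Spec.map (CommRingCat.ofHom a) ≫ r := by
  rw [CommRingCat.ofHom_comp, Spec.map_comp, Category.assoc]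

theorem fromSpecStalk_cancel {R : Type u} [CommRing R] {x : X.A}
    {a b : X.A.presheaf.stalk x →+* R}
    (h : Spec.map (CommRingCat.ofHom a) ≫ X.A.fromSpecStalk x =
      Spec.map (CommRingCat.ofHom b) ≫ X.A.fromSpecStalk x) : a = b :=
  congrArg CommRingCat.Hom.hom (Spec.map_injective ((cancel_mono _).1 h))

section Spec

variable {k : Type u} [Field k] [Algebra K k] {B : ValuationSubring L} [Algebra K B]
  [IsScalarTower K B L] (π : B →ₐ[K] k) [IsLocalHom π.toRingHom]

theorem isSpec_iff (p : (X.space).Pt L) (p' : (X.space).Pt k) :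
    Space.IsSpec π.toRingHom p p' ↔ ∃ ψ : X.H B,
      X.res (IsScalarTower.toAlgHom K B L) ψ = X.toH p ∧ X.res π ψ = X.toH p' := by
  constructor
  · rintro ⟨hs, hval⟩
    have hs' : p.q ⤳ p'.q := hs
    have key : ∀ s, p.φ (Subalgebra.inclusion (loc_le hs') (X.eqv p'.q s)) =
        X.stk p (X.A.presheaf.stalkSpecializes hs' s) := fun s =>
      congrArg p.φ (Subtype.ext (toN_stalkSpecializes hs' s).symm)
    let ι : X.A.presheaf.stalk p'.q →+* L :=
      (X.stk p).toRingHom.comp (X.A.presheaf.stalkSpecializes hs').hom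
    have hmem : ∀ s, ι s ∈ B := fun s => by
      obtain ⟨h, -⟩ := hval (X.eqv p'.q s)
      exact key s ▸ h
    let θ : X.A.presheaf.stalk p'.q →+* B := ι.codRestrict B hmem
    have hπ : π.toRingHom.comp θ = (X.stk p').toRingHom := RingHom.ext fun s => by
      obtain ⟨h, h'⟩ := hval (X.eqv p'.q s)
      refine Eq.trans ?_ h'
      exact congrArg π (Subtype.ext (key s).symm)
    refine ⟨⟨Spec.map (CommRingCat.ofHom θ) ≫ X.A.fromSpecStalk p'.q, ?_⟩, H.ext ?_, H.ext ?_⟩
    · rw [Category.assoc, fromSpecStalk_f, ← Spec.map_comp, bs]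
      refine congrArg (fun h => Spec.map (CommRingCat.ofHom h)) (RingHom.ext fun c => Subtype.ext ?_)
      show X.stk p (X.A.presheaf.stalkSpecializes hs' (X.constX p'.q c)) = _
      rw [stalkSpecializes_constX hs']
      exact ((X.stk p).commutes c).trans (IsScalarTower.algebraMap_apply K B L c)
    · show Spec.map _ ≫ Spec.map _ ≫ _ = Spec.map _ ≫ _
      rw [← Scheme.SpecMap_stalkSpecializes_fromSpecStalk hs', ← Category.assoc, ← Spec.map_comp,
        ← Category.assoc, ← Spec.map_comp]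
      rfl
    · show Spec.map _ ≫ Spec.map _ ≫ _ = Spec.map _ ≫ _
      rw [← Category.assoc, ← Spec.map_comp, ← hπ, CommRingCat.ofHom_comp]
  · rintro ⟨ψ, h1, h2⟩
    let pt : Spec (CommRingCat.of B) := closedPoint (CommRingCat.of B)
    have hst := Scheme.Spec_stalkClosedPointTo_fromSpecStalk (R := CommRingCat.of B) ψ.hom
    let θ : X.A.presheaf.stalk (ψ.hom pt) →+* B :=
      (Scheme.stalkClosedPointTo (R := CommRingCat.of B) ψ.hom).hom
    have hq' : p'.q = ψ.hom pt := by
      rw [← toH_closedPoint p', ← h2]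
      exact congrArg ψ.hom (IsLocalRing.comap_closedPoint π.toRingHom)
    have hsp : p.q ⤳ p'.q := by
      rw [← toH_closedPoint p, ← h1, hq']
      exact (IsLocalRing.specializes_closedPoint (R := B) _).map ψ.hom.continuous
    obtain ⟨q', φ', hu'⟩ := p'
    obtain rfl : q' = ψ.hom pt := hq'
    have e1 : (X.stk p).toRingHom.comp (X.A.presheaf.stalkSpecializes hsp).hom =
        (algebraMap B L).comp θ := by
      refine fromSpecStalk_cancel ((specMap_comp_assoc _ _ _).trans
        (Eq.trans ?_ (specMap_comp_assoc θ (algebraMap B L) _).symm))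
      exact ((congrArg (Spec.map (CommRingCat.ofHom (X.stk p).toRingHom) ≫ ·)
        (Scheme.SpecMap_stalkSpecializes_fromSpecStalk hsp)).trans (congrArg H.hom h1).symm).trans
          (congrArg (Spec.map (CommRingCat.ofHom (algebraMap B L)) ≫ ·) hst.symm)
    have e2 : (X.stk ⟨_, φ', hu'⟩).toRingHom = π.toRingHom.comp θ := by
      refine fromSpecStalk_cancel (Eq.trans ?_ (specMap_comp_assoc θ π.toRingHom _).symm)
      exact (congrArg H.hom h2).symm.trans
        (congrArg (Spec.map (CommRingCat.ofHom π.toRingHom) ≫ ·) hst.symm)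
    refine ⟨hsp, fun a => ?_⟩
    obtain ⟨s, rfl⟩ := (X.eqv (ψ.hom pt)).surjective a
    have hs1 : p.φ (Subalgebra.inclusion (loc_le hsp) (X.eqv (ψ.hom pt) s)) = (θ s : L) :=
      (congrArg p.φ (Subtype.ext (toN_stalkSpecializes hsp s).symm)).trans (RingHom.congr_fun e1 s)
    refine ⟨hs1 ▸ (θ s).2, ?_⟩
    refine Eq.trans ?_ (RingHom.congr_fun e2 s).symm
    exact congrArg π (Subtype.ext hs1)

theorem exists_lift (x : X.H L) :
    ∃! ψ : X.H B, X.res (IsScalarTower.toAlgHom K B L) ψ = x := by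
  have hp : IsProper X.f := inferInstance
  rw [IsProper.eq_valuativeCriterion] at hp
  let S : ValuativeCommSq X.f :=
    { R := B, K := L, i₁ := x.hom, i₂ := bs K B,
      commSq := ⟨by
        rw [x.hom_over, bs, bs, ← Spec.map_comp, ← CommRingCat.ofHom_comp,
          ← IsScalarTower.algebraMap_eq]⟩ }
  obtain ⟨u⟩ := hp.1.1.1 S
  let _ := u
  refine ⟨⟨(default : S.commSq.LiftStruct).l, (default : S.commSq.LiftStruct).fac_right⟩,
    H.ext (default : S.commSq.LiftStruct).fac_left, fun ψ hψ => H.ext ?_⟩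
  exact congrArg CommSq.LiftStruct.l
    (Unique.eq_default (⟨ψ.hom, congrArg H.hom hψ, ψ.hom_over⟩ : S.commSq.LiftStruct))

end Spec

section Residual

variable {k : Type u} [Field k] [Algebra K k] {B : ValuationSubring L} {π : B →+* k}
  (hπ : Residual (K := K) B π)

include hπ in
theorem exists_spec (p : (X.space).Pt L) : ∃! p' : (X.space).Pt k, Space.IsSpec π p p' := by
  letI : Algebra K B := ((algebraMap K L).codRestrict B fun c => (hπ.2 c).1).toAlgebra
  haveI : IsScalarTower K B L := IsScalarTower.of_algebraMap_eq fun c => rfl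
  let π' : B →ₐ[K] k := { π with commutes' := fun c => (hπ.2 c).2 }
  haveI : IsLocalHom π'.toRingHom := hπ.1
  obtain ⟨ψ, hψ, huniq⟩ := exists_lift (X.toH p) (B := B)
  obtain ⟨p', hp'⟩ := toH_bijective.2 (X.res π' ψ)
  refine ⟨p', (isSpec_iff π' p p').2 ⟨ψ, hψ, hp'.symm⟩, fun p'' h => ?_⟩
  obtain ⟨ψ', h1, h2⟩ := (isSpec_iff π' p p'').1 h
  exact toH_bijective.1 (by rw [← h2, huniq ψ' h1, hp'])

include hπ in
theorem spec_add {p q : (X.space).Pt L} {p' q' : (X.space).Pt k} (hp : Space.IsSpec π p p')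
    (hq : Space.IsSpec π q q') : Space.IsSpec π (p + q) (p' + q') := by
  letI : Algebra K B := ((algebraMap K L).codRestrict B fun c => (hπ.2 c).1).toAlgebra
  haveI : IsScalarTower K B L := IsScalarTower.of_algebraMap_eq fun c => rfl
  let π' : B →ₐ[K] k := { π with commutes' := fun c => (hπ.2 c).2 }
  haveI : IsLocalHom π'.toRingHom := hπ.1
  obtain ⟨ψ, h1, h2⟩ := (isSpec_iff π' p p').1 hp
  obtain ⟨χ, h3, h4⟩ := (isSpec_iff π' q q').1 hq
  exact (isSpec_iff π' _ _).2 ⟨ψ * χ, by rw [map_mul, h1, h3, toH_add],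
    by rw [map_mul, h2, h4, toH_add]⟩

end Residual

end FLTAgent.AV.AbVar
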