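import Fermat.Agent.AV.Scheme.Hom
import Fermat.Agent.AV.Interface

/-!
# The space of an abelian variety

The function field with the local rings of all points, and the identification of points with values
in a field as morphisms from its spectrum.
-/

set_option autoImplicit false
set_option linter.style.haveILetI false
set_option linter.unusedSectionVars false

noncomputable section

universe u

open CategoryTheory AlgebraicGeometry NeronModelInfra GoodReductionJacobian
  GoodReductionJacobian.RelativeGroupLaw TopologicalSpace IsLocalRing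

namespace FLTAgent.AV.AbVar

variable {K : Type u} [Field K] {g : ℕ} {X : AbVar K g}

/-- The constants in a stalk. -/
def constX (X : AbVar K g) (x : X.A) : K →+* X.A.presheaf.stalk x :=
  (X.A.presheaf.germ ⊤ x trivial).hom.comp (Var.baseHom X.f ⊤)

instance (x : X.A) : Algebra K (X.A.presheaf.stalk x) := (X.constX x).toAlgebra

theorem germ_baseHom {V : X.A.Opens} {x : X.A} (hx : x ∈ V) (c : K) :
    X.A.presheaf.germ V x hx (Var.baseHom X.f V c) = X.constX x c := by
  have h : Var.baseHom X.f V c =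
      X.A.presheaf.map (homOfLE (le_top : V ≤ ⊤)).op (Var.baseHom X.f ⊤ c) :=
    (RingHom.congr_fun (congrArg CommRingCat.Hom.hom
      (congrArg ((Scheme.ΓSpecIso (CommRingCat.of K)).inv ≫ ·)
        (Scheme.Hom.appLE_map X.f (U := ⊤) (V := ⊤) le_top (homOfLE (le_top : V ≤ ⊤)).op))) c).symm
  rw [h, TopCat.Presheaf.germ_res_apply]
  rfl

theorem stalkSpecializes_constX {a b : X.A} (h : a ⤳ b) (c : K) :
    X.A.presheaf.stalkSpecializes h (X.constX b c) = X.constX a c :=
  TopCat.Presheaf.germ_stalkSpecializes_apply X.A.presheaf (U := ⊤) trivial h _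

theorem fromSpecStalk_f (x : X.A) :
    X.A.fromSpecStalk x ≫ X.f = Spec.map (CommRingCat.ofHom (X.constX x)) := by
  obtain ⟨V, hV, hx, -⟩ := Var.exists_chart X.f g x
  rw [← hV.fromSpecStalk_eq_fromSpecStalk hx, IsAffineOpen.fromSpecStalk, Category.assoc,
    fromSpec_f hV, ← Spec.map_comp]
  exact congrArg Spec.map (CommRingCat.hom_ext (RingHom.ext fun c => germ_baseHom hx c))

variable [IsAlgClosed K]

variable (X) in
/-- The function field. -/
abbrev FF : Type u := X.A.functionField

/-- A stalk inside the function field. -/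
def toN (x : X.A) : X.A.presheaf.stalk x →ₐ[K] X.FF :=
  { algebraMap (X.A.presheaf.stalk x) X.A.functionField with
    commutes' := fun c => stalkSpecializes_constX _ c }

theorem toN_injective (x : X.A) : Function.Injective (X.toN x) :=
  IsFractionRing.injective (X.A.presheaf.stalk x) X.A.functionField

theorem toN_germ {V : X.A.Opens} [Nonempty V] {x : X.A} (hx : x ∈ V) (s : Γ(X.A, V)) :
    X.toN x (X.A.presheaf.germ V x hx s) = X.A.germToFunctionField V s :=
  Scheme.algebraMap_germ_eq_germToFunctionField X.A (x := x) hx s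

theorem toN_stalkSpecializes {a b : X.A} (h : a ⤳ b) (s : X.A.presheaf.stalk b) :
    X.toN a (X.A.presheaf.stalkSpecializes h s) = X.toN b s := by
  show X.A.presheaf.stalkSpecializes _ (X.A.presheaf.stalkSpecializes h s) = _
  rw [← CommRingCat.comp_apply, TopCat.Presheaf.stalkSpecializes_comp]
  rfl

variable (X) in
/-- The local ring of a point. -/
def loc (x : X.A) : Subalgebra K X.FF := (X.toN x).range

/-- A stalk is the local ring of the point. -/
def eqv (x : X.A) : X.A.presheaf.stalk x ≃ₐ[K] X.loc x :=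
  AlgEquiv.ofInjective (X.toN x) (toN_injective x)

theorem eqv_coe (x : X.A) (s : X.A.presheaf.stalk x) : (X.eqv x s : X.FF) = X.toN x s := rfl

theorem loc_gen : X.loc (genericPoint X.A) = ⊤ := by
  refine top_unique fun s _ => ⟨s, ?_⟩
  show X.A.presheaf.stalkSpecializes _ s = s
  rw [TopCat.Presheaf.stalkSpecializes_refl]
  rfl

theorem loc_le {a b : X.A} (h : a ⤳ b) : X.loc b ≤ X.loc a := by
  rintro _ ⟨s, rfl⟩
  exact ⟨X.A.presheaf.stalkSpecializes h s, toN_stalkSpecializes h s⟩

theorem exists_frac_loc (x : X.A) (z : X.FF) :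
    ∃ a ∈ X.loc x, ∃ b ∈ X.loc x, b ≠ 0 ∧ z = a / b := by
  obtain ⟨a, b, hb, rfl⟩ :=
    IsFractionRing.div_surjective (A := X.A.presheaf.stalk x) z
  exact ⟨_, ⟨a, rfl⟩, _, ⟨b, rfl⟩,
    fun h => nonZeroDivisors.ne_zero hb ((map_eq_zero_iff _ (toN_injective x)).1 h), rfl⟩

theorem exists_frac_spz {a b : X.A} (h : a ⤳ b) (z : X.FF) (hz : z ∈ X.loc a) :
    ∃ c ∈ X.loc b, ∃ d ∈ X.loc b, d ≠ 0 ∧ d⁻¹ ∈ X.loc a ∧ z = c / d := by
  obtain ⟨s, rfl⟩ := hz
  obtain ⟨V, hV, hb, -⟩ := Var.exists_chart X.f g b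
  have ha : a ∈ V := h.mem_open V.2 hb
  haveI : Nonempty V := ⟨⟨b, hb⟩⟩
  letI : Algebra Γ(X.A, V) (X.A.presheaf.stalk a) := (X.A.presheaf.germ V a ha).hom.toAlgebra
  haveI : IsLocalization.AtPrime (X.A.presheaf.stalk a) (hV.primeIdealOf ⟨a, ha⟩).asIdeal :=
    hV.isLocalization_stalk ⟨a, ha⟩
  obtain ⟨⟨u, w⟩, huw⟩ :=
    IsLocalization.surj (hV.primeIdealOf ⟨a, ha⟩).asIdeal.primeCompl s
  obtain ⟨v, hv⟩ := (IsLocalization.map_units (X.A.presheaf.stalk a) w).exists_right_inv
  have hw : X.toN a (X.A.presheaf.germ V a ha (w : Γ(X.A, V))) * X.toN a v = 1 := by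
    rw [← map_mul]
    exact (congrArg (X.toN a) hv).trans (map_one _)
  refine ⟨X.toN b (X.A.presheaf.germ V b hb u), ⟨_, rfl⟩,
    X.toN b (X.A.presheaf.germ V b hb w), ⟨_, rfl⟩, ?_⟩
  rw [toN_germ, toN_germ, ← toN_germ (x := a) ha, ← toN_germ (x := a) ha]
  have h0 := left_ne_zero_of_mul_eq_one hw
  refine ⟨h0, ⟨v, (inv_eq_of_mul_eq_one_right hw).symm⟩, ?_⟩
  rw [eq_div_iff h0]
  show X.toN a s * _ = _
  rw [← map_mul]
  exact congrArg (X.toN a) huw

theorem exists_affine_generic : ∃ V : X.A.Opens, IsAffineOpen V ∧ genericPoint X.A ∈ V ∧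
    ∃ φ : MvPolynomial (Fin g) K →+* Γ(X.A, V),
      φ.comp MvPolynomial.C = Var.baseHom X.f V ∧ φ.Etale :=
  Var.exists_chart X.f g _

theorem essFiniteType_trdeg : Algebra.EssFiniteType K X.FF ∧ Algebra.trdeg K X.FF = g := by
  obtain ⟨V, hV, hη, φ, hC, hφ⟩ := exists_affine_generic (X := X)
  haveI : Nonempty V := ⟨⟨_, hη⟩⟩
  letI : Algebra K Γ(X.A, V) := (Var.baseHom X.f V).toAlgebra
  letI : Algebra (MvPolynomial (Fin g) K) Γ(X.A, V) := φ.toAlgebra
  haveI : Algebra.Etale (MvPolynomial (Fin g) K) Γ(X.A, V) := hφ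
  haveI : IsScalarTower K (MvPolynomial (Fin g) K) Γ(X.A, V) :=
    IsScalarTower.of_algebraMap_eq fun c => (RingHom.congr_fun hC c).symm
  haveI : IsScalarTower K Γ(X.A, V) X.FF :=
    IsScalarTower.of_algebraMap_eq fun c => (germ_baseHom hη c).symm
  haveI : IsFractionRing Γ(X.A, V) X.FF := functionField_isFractionRing_of_isAffineOpen X.A V hV
  haveI : Algebra.FiniteType K Γ(X.A, V) :=
    Algebra.FiniteType.trans (S := MvPolynomial (Fin g) K) inferInstance inferInstance
  haveI : Algebra.EssFiniteType Γ(X.A, V) X.FF :=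
    Algebra.EssFiniteType.of_isLocalization X.FF (nonZeroDivisors Γ(X.A, V))
  exact ⟨Algebra.EssFiniteType.comp K Γ(X.A, V) X.FF, Chart.trdeg_fractionRing (S := Γ(X.A, V)) g X.FF⟩

variable (X) in
/-- The space of an abelian variety. -/
abbrev space : Space K g where
  N := X.FF
  Q := X.A
  gen := genericPoint X.A
  O := X.loc
  O_gen := loc_gen
  isLocalRing x := RingEquiv.isLocalRing (X.eqv x).toRingEquiv
  exists_frac := exists_frac_loc
  essFiniteType := essFiniteType_trdeg.1
  trdeg_eq := essFiniteType_trdeg.2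
  Spz a b := a ⤳ b
  spz_refl := specializes_refl
  spz_trans h h' := h.trans h'
  spz_le := loc_le
  spz_frac := exists_frac_spz

variable {L : Type u} [Field L] [Algebra K L]

/-- The map from the stalk of a point with values in a field. -/
def stk (p : (X.space).Pt L) : X.A.presheaf.stalk p.q →ₐ[K] L :=
  p.φ.comp (X.eqv p.q).toAlgHom

theorem isLocalHom_stk (p : (X.space).Pt L) : IsLocalHom (X.stk p).toRingHom :=
  ⟨fun s hs => by
    have h := p.isUnit_of_ne_zero (X.eqv p.q s) hs.ne_zero
    simpa using h.map (X.eqv p.q).symm⟩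

/-- The morphism of a point with values in a field. -/
def toH (p : (X.space).Pt L) : X.H L :=
  ⟨Spec.map (CommRingCat.ofHom (X.stk p).toRingHom) ≫ X.A.fromSpecStalk p.q, by
    rw [Category.assoc, fromSpecStalk_f, ← Spec.map_comp, bs]
    exact congrArg (fun h => Spec.map (CommRingCat.ofHom h)) (RingHom.ext (X.stk p).commutes)⟩

theorem toH_closedPoint (p : (X.space).Pt L) : (X.toH p).hom (closedPoint L) = p.q := by
  haveI := isLocalHom_stk p
  show (Spec.map (CommRingCat.ofHom (X.stk p).toRingHom) ≫ X.A.fromSpecStalk p.q) _ = _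
  exact (congrArg _ (IsLocalRing.comap_closedPoint (X.stk p).toRingHom)).trans
    Scheme.fromSpecStalk_closedPoint

theorem toH_in {p : (X.space).Pt L} {V : X.A.Opens} (h : p.q ∈ V) : (X.toH p).In V :=
  by show (X.toH p).hom (closedPoint L) ∈ V; rw [toH_closedPoint]; exact h

theorem sect_toH {p : (X.space).Pt L} {V : X.A.Opens} (hV : IsAffineOpen V) (h : p.q ∈ V)
    (s : Γ(X.A, V)) :
    sect (toH_in h) s = X.stk p (X.A.presheaf.germ V p.q h s) := by
  have key : (CommRingCat.ofHom (X.stk p).toRingHom).hom.comp (X.A.presheaf.germ V p.q h).hom =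
      sect (toH_in h) := eq_sect hV _ (by
    rw [CommRingCat.ofHom_comp, Spec.map_comp, Category.assoc]
    exact congrArg _ (hV.fromSpecStalk_eq_fromSpecStalk h))
  exact (RingHom.congr_fun key s).symm

theorem toH_bijective : Function.Bijective (X.toH (L := L)) := by
  constructor
  · rintro ⟨q, φ, hu⟩ ⟨q', φ', hu'⟩ h
    have h1 := congrArg H.hom h
    have e : (SpecToEquivOfLocalRing X.A (CommRingCat.of L)).symm
          ⟨q, CommRingCat.ofHom (X.stk ⟨q, φ, hu⟩).toRingHom, isLocalHom_stk _⟩ =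
        (SpecToEquivOfLocalRing X.A (CommRingCat.of L)).symm
          ⟨q', CommRingCat.ofHom (X.stk ⟨q', φ', hu'⟩).toRingHom, isLocalHom_stk _⟩ := h1
    have e' := (SpecToEquivOfLocalRing X.A (CommRingCat.of L)).symm.injective e
    obtain rfl : q = q' := congrArg Sigma.fst e'
    have e'' : CommRingCat.ofHom (X.stk ⟨q, φ, hu⟩).toRingHom =
        CommRingCat.ofHom (X.stk ⟨q, φ', hu'⟩).toRingHom :=
      congrArg Subtype.val (eq_of_heq (Sigma.mk.inj e').2)
    congr 1
    refine AlgHom.ext fun a => ?_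
    obtain ⟨s, rfl⟩ := (X.eqv q).surjective a
    exact RingHom.congr_fun (congrArg CommRingCat.Hom.hom e'') s
  · intro x
    have hst := Scheme.Spec_stalkClosedPointTo_fromSpecStalk (R := CommRingCat.of L) x.hom
    let pt : Spec (CommRingCat.of L) := closedPoint (CommRingCat.of L)
    let σ : X.A.presheaf.stalk (x.hom pt) →+* L :=
      (Scheme.stalkClosedPointTo (R := CommRingCat.of L) x.hom).hom
    have hσ : IsLocalHom σ :=
      Scheme.isLocalHom_stalkClosedPointTo' x.hom
    have hc : ∀ c, σ (X.constX _ c) = algebraMap K L c := fun c => by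
      have h := x.hom_over
      rw [← hst, Category.assoc, fromSpecStalk_f, ← Spec.map_comp, bs] at h
      exact RingHom.congr_fun (congrArg CommRingCat.Hom.hom (Spec.map_injective h)) c
    let ψ : X.A.presheaf.stalk (x.hom pt) →ₐ[K] L := { σ with commutes' := hc }
    refine ⟨⟨x.hom pt, ψ.comp (X.eqv _).symm.toAlgHom, fun a ha => ?_⟩, H.ext ?_⟩
    · have h1 : IsUnit ((X.eqv (x.hom pt)).symm a) := hσ.map_nonunit _ (isUnit_iff_ne_zero.2 ha)
      simpa using h1.map (X.eqv (x.hom pt))
    · refine Eq.trans ?_ hst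
      show Spec.map (CommRingCat.ofHom _) ≫ _ = _
      congr 3
      ext s
      exact congrArg σ ((X.eqv (x.hom pt)).symm_apply_apply s)

/-- Points with values in a field are morphisms from its spectrum. -/
def ptEquiv : (X.space).Pt L ≃ X.H L := Equiv.ofBijective _ toH_bijective

instance : AddCommGroup ((X.space).Pt L) :=
  letI := (Additive.ofMul : X.H L ≃ Additive (X.H L))
  (ptEquiv.trans this).addCommGroup

theorem toH_add (p q : (X.space).Pt L) : X.toH (p + q) = X.toH p * X.toH q :=
  ptEquiv.apply_symm_apply _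

theorem toH_zero : X.toH (0 : (X.space).Pt L) = 1 := ptEquiv.apply_symm_apply _

theorem toH_map {L' : Type u} [Field L'] [Algebra K L'] (σ : L →ₐ[K] L') (p : (X.space).Pt L) :
    X.toH (p.map σ) = X.res σ (X.toH p) := by
  apply H.ext
  show Spec.map (CommRingCat.ofHom (X.stk (p.map σ)).toRingHom) ≫ _ =
    Spec.map (CommRingCat.ofHom σ.toRingHom) ≫
      Spec.map (CommRingCat.ofHom (X.stk p).toRingHom) ≫ _
  rw [← Category.assoc, ← Spec.map_comp, ← CommRingCat.ofHom_comp]
  rfl

theorem map_add_pt {L' : Type u} [Field L'] [Algebra K L'] (σ : L →ₐ[K] L')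
    (p q : (X.space).Pt L) : (p + q).map σ = p.map σ + q.map σ :=
  toH_bijective.1 (by rw [toH_map, toH_add, toH_add, toH_map, toH_map, map_mul])

end FLTAgent.AV.AbVar
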