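import Fermat.Agent.AV.Scheme.Props

/-!
# Tangent vectors

Points with values in trivial square zero extensions of a field which reduce to the neutral point
form a group, and the derivative of a function at a translate is additive in them.
-/

set_option autoImplicit false
set_option linter.style.haveILetI false
set_option linter.unusedSectionVars false

noncomputable section

universe u

open CategoryTheory AlgebraicGeometry NeronModelInfra GoodReductionJacobian
  TopologicalSpace IsLocalRing TrivSqZeroExt

namespace FLTAgent.AV.AbVar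

variable {K : Type u} [Field K] {g : ℕ} {X : AbVar K g}

instance (V : X.A.Opens) : Algebra K Γ(X.A, V) := (Var.baseHom X.f V).toAlgebra

variable {R R' : Type u} [CommRing R] [Algebra K R] [CommRing R'] [Algebra K R']
  [IsLocalRing R] [IsLocalRing R']

theorem in_res_iff {V : X.A.Opens} (σ : R →ₐ[K] R') [IsLocalHom σ.toRingHom] (x : X.H R) :
    (X.res σ x).In V ↔ x.In V := by
  show x.hom (PrimeSpectrum.comap σ.toRingHom (closedPoint R')) ∈ V ↔ _
  rw [IsLocalRing.comap_closedPoint]
  rfl

open scoped Classical in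
/-- The values of the functions on an open set at a point, zero if the point is outside. -/
def val (V : X.A.Opens) (x : X.H R) (s : Γ(X.A, V)) : R :=
  if h : x.In V then sect h s else 0

theorem val_eq {V : X.A.Opens} {x : X.H R} (h : x.In V) (s : Γ(X.A, V)) : val V x s = sect h s :=
  dif_pos h

theorem val_res {V : X.A.Opens} (hV : IsAffineOpen V) (σ : R →ₐ[K] R') {x : X.H R} (h : x.In V)
    (s : Γ(X.A, V)) : val V (X.res σ x) s = σ (val V x s) := by
  rw [val_eq (In.res h σ), val_eq h, sect_res hV h σ]
  rfl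

theorem ext_val {V : X.A.Opens} (hV : IsAffineOpen V) {x y : X.H R} (hx : x.In V) (hy : y.In V)
    (h : ∀ s, val V x s = val V y s) : x = y :=
  sect_injective hV hx hy (RingHom.ext fun s => by
    have := h s
    rwa [val_eq hx, val_eq hy] at this)

variable {L L' : Type u} [Field L] [Algebra K L] [Field L'] [Algebra K L']
  {M M' : Type u} [AddCommGroup M] [Module L M] [Module Lᵐᵒᵖ M] [IsCentralScalar L M]
  [Module K M] [IsScalarTower K L M] [IsScalarTower K Lᵐᵒᵖ M]
  [AddCommGroup M'] [Module L M'] [Module Lᵐᵒᵖ M'] [IsCentralScalar L M']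
  [Module K M'] [IsScalarTower K L M'] [IsScalarTower K Lᵐᵒᵖ M']

instance : IsLocalRing (TrivSqZeroExt L M) :=
  IsLocalRing.of_isUnit_or_isUnit_one_sub_self fun x => by
    simp only [isUnit_iff_isUnit_fst, fst_sub, fst_one, isUnit_iff_ne_zero]
    by_cases h : x.fst = 0
    · exact Or.inr (by rw [h, sub_zero]; exact one_ne_zero)
    · exact Or.inl h

/-- The projection to the field. -/
abbrev fstK : TrivSqZeroExt L M →ₐ[K] L := TrivSqZeroExt.fstHom K L M

/-- The inclusion of the field. -/
abbrev inlK : L →ₐ[K] TrivSqZeroExt L M := TrivSqZeroExt.inlAlgHom K L M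

/-- The map of a linear map. -/
abbrev mapK (f : M →ₗ[L] M') : TrivSqZeroExt L M →ₐ[K] TrivSqZeroExt L M' :=
  (TrivSqZeroExt.map f).restrictScalars K

instance : IsLocalHom (fstK (K := K) (L := L) (M := M)).toRingHom :=
  ⟨fun _ h => isUnit_iff_isUnit_fst.2 h⟩

variable (X) in
/-- A point over the extension which reduces to the neutral point. -/
def Tan (t : X.H (TrivSqZeroExt L M)) : Prop := X.res fstK t = 1

theorem Tan.one : Tan X (1 : X.H (TrivSqZeroExt L M)) := map_one _

theorem Tan.mul {t t' : X.H (TrivSqZeroExt L M)} (h : Tan X t) (h' : Tan X t') :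
    Tan X (t * t') := by
  rw [Tan, map_mul, h, h', one_mul]

theorem Tan.map {t : X.H (TrivSqZeroExt L M)} (h : Tan X t) (f : M →ₗ[L] M') :
    Tan X (X.res (mapK f) t) := by
  rw [Tan, res_res, show (fstK : TrivSqZeroExt L M' →ₐ[K] L).comp (mapK f) = fstK from
    AlgHom.ext fun x => fst_map f x]
  exact h

theorem res_mapK_zero {t : X.H (TrivSqZeroExt L M)} (h : Tan X t) :
    X.res (mapK (0 : M →ₗ[L] M')) t = 1 := by
  rw [show mapK (K := K) (0 : M →ₗ[L] M') = inlK.comp fstK from AlgHom.ext fun x =>
    TrivSqZeroExt.ext (by simp) (by simp), ← res_res, h, map_one]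

theorem res_mapK_mapK {M'' : Type u} [AddCommGroup M''] [Module L M''] [Module Lᵐᵒᵖ M'']
    [IsCentralScalar L M''] [Module K M''] [IsScalarTower K L M''] [IsScalarTower K Lᵐᵒᵖ M'']
    (f : M →ₗ[L] M') (f' : M' →ₗ[L] M'') (t : X.H (TrivSqZeroExt L M)) :
    X.res (mapK f') (X.res (mapK f) t) = X.res (mapK (f'.comp f)) t := by
  rw [res_res]
  exact congrArg (fun σ => X.res σ t) (AlgHom.ext fun x => TrivSqZeroExt.ext (by simp) (by simp))

theorem res_mapK_id (t : X.H (TrivSqZeroExt L M)) :
    X.res (mapK (LinearMap.id : M →ₗ[L] M)) t = t := by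
  rw [show mapK (K := K) (LinearMap.id : M →ₗ[L] M) = AlgHom.id K _ from
    AlgHom.ext fun x => TrivSqZeroExt.ext (by simp) (by simp), res_id]

theorem res_fst_translate (x : X.H L) {t : X.H (TrivSqZeroExt L M)} (h : Tan X t) :
    X.res fstK (X.res inlK x * t) = x := by
  rw [map_mul, h, mul_one, res_res, show (fstK (M := M)).comp (inlK (K := K) (L := L)) = AlgHom.id K L
    from AlgHom.ext fun c => fst_inl M c, res_id]

theorem translate_in {V : X.A.Opens} {x : X.H L} (hx : x.In V) {t : X.H (TrivSqZeroExt L M)}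
    (h : Tan X t) : (X.res inlK x * t).In V := by
  have := in_res_iff (V := V) (fstK (M := M)) (X.res inlK x * t)
  rw [res_fst_translate x h] at this
  exact this.1 hx

variable {V : X.A.Opens}

/-- The derivative of a function at a point along a tangent vector. -/
def der (V : X.A.Opens) (x : X.H L) (t : X.H (TrivSqZeroExt L M)) (s : Γ(X.A, V)) : M :=
  (val V (X.res inlK x * t) s).snd

theorem fst_translate (hV : IsAffineOpen V) {x : X.H L} (hx : x.In V)
    {t : X.H (TrivSqZeroExt L M)} (h : Tan X t) (s : Γ(X.A, V)) :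
    (val V (X.res inlK x * t) s).fst = val V x s := by
  have := val_res hV (fstK (M := M)) (translate_in hx h) s
  rw [res_fst_translate x h] at this
  exact this.symm

theorem der_map (hV : IsAffineOpen V) {x : X.H L} (hx : x.In V)
    {t : X.H (TrivSqZeroExt L M)} (h : Tan X t) (f : M →ₗ[L] M') (s : Γ(X.A, V)) :
    der V x (X.res (mapK f) t) s = f (der V x t s) := by
  have h1 : X.res inlK x * X.res (mapK f) t = X.res (mapK f) (X.res inlK x * t) := by
    rw [map_mul]
    refine congrArg (· * _) ((congrArg (fun σ => X.res σ x) ?_).trans (res_res _ _ x).symm)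
    exact AlgHom.ext fun c => (TrivSqZeroExt.map_inl f c).symm
  rw [der, h1, val_res hV _ (translate_in hx h)]
  exact snd_map f _

theorem der_mul (hV : IsAffineOpen V) {x : X.H L} (hx : x.In V)
    {t t' : X.H (TrivSqZeroExt L L)} (h : Tan X t) (h' : Tan X t') (s : Γ(X.A, V)) :
    der V x (t * t') s = der V x t s + der V x t' s := by
  let a := X.res (mapK (LinearMap.inl L L L)) t
  let b := X.res (mapK (LinearMap.inr L L L)) t'
  have hu : Tan X (a * b) := (h.map _).mul (h'.map _)
  have h1 : X.res (mapK (LinearMap.fst L L L)) (a * b) = t := by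
    rw [map_mul, res_mapK_mapK, res_mapK_mapK, LinearMap.fst_comp_inl, LinearMap.fst_comp_inr,
      res_mapK_id, res_mapK_zero h', mul_one]
  have h2 : X.res (mapK (LinearMap.snd L L L)) (a * b) = t' := by
    rw [map_mul, res_mapK_mapK, res_mapK_mapK, LinearMap.snd_comp_inl, LinearMap.snd_comp_inr,
      res_mapK_id, res_mapK_zero h, one_mul]
  have h3 : X.res (mapK (LinearMap.fst L L L + LinearMap.snd L L L)) (a * b) = t * t' := by
    rw [map_mul, res_mapK_mapK, res_mapK_mapK, LinearMap.add_comp, LinearMap.add_comp,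
      LinearMap.fst_comp_inl, LinearMap.fst_comp_inr, LinearMap.snd_comp_inl,
      LinearMap.snd_comp_inr, add_zero, zero_add, res_mapK_id, res_mapK_id]
  rw [← h3, der_map hV hx hu, LinearMap.add_apply, ← der_map hV hx hu, ← der_map hV hx hu, h1, h2]

/-- A field extension acting on the extensions. -/
def mapField (σ : L →ₐ[K] L') : TrivSqZeroExt L L →ₐ[K] TrivSqZeroExt L' L' where
  toFun x := inl (σ x.fst) + inr (σ x.snd)
  map_one' := TrivSqZeroExt.ext (by simp) (by simp)
  map_mul' x y := TrivSqZeroExt.ext (by simp) (by simp)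
  map_zero' := TrivSqZeroExt.ext (by simp) (by simp)
  map_add' x y := TrivSqZeroExt.ext (by simp) (by simp)
  commutes' c := TrivSqZeroExt.ext (by simp [algebraMap_eq_inl'])
    (by simp [algebraMap_eq_inl'])

@[simp]
theorem fst_mapField (σ : L →ₐ[K] L') (x : TrivSqZeroExt L L) :
    (mapField σ x).fst = σ x.fst := by simp [mapField]

@[simp]
theorem snd_mapField (σ : L →ₐ[K] L') (x : TrivSqZeroExt L L) :
    (mapField σ x).snd = σ x.snd := by simp [mapField]

theorem Tan.mapField {t : X.H (TrivSqZeroExt L L)} (h : Tan X t) (σ : L →ₐ[K] L') :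
    Tan X (X.res (AbVar.mapField σ) t) := by
  rw [Tan, res_res, show (fstK : TrivSqZeroExt L' L' →ₐ[K] L').comp (AbVar.mapField σ) =
    σ.comp fstK from AlgHom.ext fun x => fst_mapField σ x, ← res_res, h, map_one]

theorem der_mapField (hV : IsAffineOpen V) (σ : L →ₐ[K] L') {x : X.H L} (hx : x.In V)
    {t : X.H (TrivSqZeroExt L L)} (h : Tan X t) (s : Γ(X.A, V)) :
    der V (X.res σ x) (X.res (mapField σ) t) s = σ (der V x t s) := by
  have h1 : X.res inlK (X.res σ x) * X.res (mapField σ) t =
      X.res (mapField σ) (X.res inlK x * t) := by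
    rw [map_mul, res_res, res_res]
    exact congrArg (fun τ => X.res τ x * _)
      (AlgHom.ext fun c => TrivSqZeroExt.ext (by simp) (by simp))
  rw [der, h1, val_res hV _ (translate_in hx h), snd_mapField]
  rfl

theorem der_prod (hV : IsAffineOpen V) {x : X.H L} (hx : x.In V) {ι : Type*}
    (t : ι → X.H (TrivSqZeroExt L L)) (h : ∀ i, Tan X (t i)) (J : Finset ι) (s : Γ(X.A, V)) :
    Tan X (∏ i ∈ J, t i) ∧ der V x (∏ i ∈ J, t i) s = ∑ i ∈ J, der V x (t i) s := by
  classical
  induction J using Finset.induction_on with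
  | empty =>
    refine ⟨Tan.one, ?_⟩
    rw [Finset.prod_empty, Finset.sum_empty, der, mul_one, val_res hV _ hx]
    exact snd_inl L _
  | insert i J hi ih =>
    rw [Finset.prod_insert hi, Finset.sum_insert hi, der_mul hV hx (h i) ih.1, ih.2]
    exact ⟨(h i).mul ih.1, rfl⟩

end FLTAgent.AV.AbVar
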