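import Fermat.Agent.AV.Scheme.Dual

/-!
# The abstract data of an abelian scheme over an algebraically closed field
-/

set_option autoImplicit false
set_option linter.style.haveILetI false
set_option linter.unusedSectionVars false

noncomputable section

universe u

open CategoryTheory AlgebraicGeometry NeronModelInfra GoodReductionJacobian
  TopologicalSpace IsLocalRing

namespace FLTAgent.AV

namespace AbVar

variable {K : Type u} [Field K] [IsAlgClosed K] {g : ℕ} {X : AbVar K g}

/-- The law of an abelian variety. -/
def law (F : Frame X) : Law X.space where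
  group _ := inferInstance
  map_add := map_add_pt
  exists_spec _ h := exists_spec h
  spec_add := @fun L k _ _ _ _ B π p q p' q' h => spec_add h
  q_eq_gen := q_eq_gen
  ufd := ufd_loc
  val_or := val_or_loc
  dlog _ _ _ D := dlog F D
  dlog_eq_zero := dlog_eq_zero F
  grad := grad F
  grad_spec := by
    intro L _ _ D p h hp
    obtain ⟨q, φ, hu⟩ := p
    obtain rfl : q = genericPoint X.A := hp
    have htop : ∀ x : X.FF, x ∈ X.loc (genericPoint X.A) := fun x => by
      rw [loc_gen]; exact Algebra.mem_top
    let ψ : X.FF →ₐ[K] L := φ.comp ((AlgHom.id K X.FF).codRestrict _ htop)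
    have hp : (Space.genPt (V := X.space)).map ψ =
        (⟨genericPoint X.A, φ, hu⟩ : (X.space).Pt L) := rfl
    have he : ∀ x, Space.Pt.eval (V := X.space) ⟨genericPoint X.A, φ, hu⟩ x = ψ x := fun x =>
      dif_pos (htop x)
    refine (congrArg D (he h)).trans ((grad_spec_aux F D ψ h).trans ?_)
    exact Finset.sum_congr rfl fun i _ =>
      congrArg₂ (· * ·) (he (grad F h i)).symm (congrArg (dlog F D · i) hp)

theorem toH_nsmul (n : ℕ) (p : (X.space).Pt K) :
    X.toH (n • p) = X.L.nsmul (bs K K) n (X.toH p) := by
  induction n with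
  | zero => rw [zero_smul, toH_zero]; rfl
  | succ n ih =>
    rw [succ_nsmul, toH_add, ih]
    rfl

theorem natCard_torsion (n : ℕ) : Nat.card {p : (X.space).Pt K // n • p = 0} =
    Nat.card {x : SchemeHomOver (𝟙 (Spec (CommRingCat.of K))) X.f //
      X.L.IsTorsionPoint (𝟙 (Spec (CommRingCat.of K))) n x} := by
  have key : ∀ (b : Spec (CommRingCat.of K) ⟶ Spec (CommRingCat.of K)), b = bs K K →
      Nat.card {x : SchemeHomOver b X.f // X.L.IsTorsionPoint b n x} =
        Nat.card {p : (X.space).Pt K // n • p = 0} := by
    rintro _ rfl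
    refine (Nat.card_congr (Equiv.subtypeEquiv (ptEquiv (X := X) (L := K)) fun p => ?_)).symm
    show n • p = 0 ↔ X.L.nsmul (bs K K) n (X.toH p) = X.L.one (bs K K)
    rw [← toH_nsmul, ← (toH_bijective (X := X) (L := K)).1.eq_iff, toH_zero]
    rfl
  exact (key _ bs_self.symm).symm

end AbVar

/-- An abelian scheme over an algebraically closed field yields the data. -/
theorem targetScheme : TargetScheme.{u} := by
  intro K _ _ A f L hc hA g hg
  let X : AbVar K g := ⟨A, f, L, hc, hA, hg⟩
  obtain ⟨F⟩ := AbVar.exists_frame X
  exact ⟨X.space, AbVar.law F, AbVar.natCard_torsion⟩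

end FLTAgent.AV
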